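import Fermat.Agent.PIC.Field.Rings

/-!
# Maps of data over a field

A nonzero map of data over a field is injective with finite dimensional cokernels; it raises the
Euler characteristic, and is an isomorphism if the Euler characteristics agree.
-/

set_option autoImplicit false

universe u

open scoped TensorProduct
open Polynomial

namespace Fermat.PIC

noncomputable section

/-- A nonzero map of invertible modules over a domain is injective. -/
lemma injective_of_invertible {R : Type u} [CommRing R] [IsDomain R] {P Q : Type u}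
    [AddCommGroup P] [Module R P] [Module.Invertible R P] [AddCommGroup Q] [Module R Q]
    [Module.Invertible R Q] {f : P →ₗ[R] Q} (hf : f ≠ 0) : Function.Injective f := by
  obtain ⟨I, ⟨e⟩⟩ := Module.Invertible.exists_linearEquiv_ideal R P
  obtain ⟨J, ⟨e'⟩⟩ := Module.Invertible.exists_linearEquiv_ideal R Q
  rw [injective_iff_map_eq_zero]
  intro p hp
  by_contra hp0
  refine hf (LinearMap.ext fun q ↦ ?_)
  have h1 : (e q : R) • p = (e p : R) • q := e.injective <| Subtype.ext <| by
    rw [map_smul, map_smul, Submodule.coe_smul, Submodule.coe_smul, smul_eq_mul, smul_eq_mul,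
      mul_comm]
  have h2 := congrArg (fun z ↦ (e' (f z) : R)) h1
  simp only [map_smul, Submodule.coe_smul, smul_eq_mul, hp, map_zero, Submodule.coe_zero,
    mul_zero] at h2
  have h3 : (e p : R) ≠ 0 := fun h ↦ hp0 (e.injective (Subtype.ext (by rw [map_zero]; exact h)))
  exact e'.injective (Subtype.ext (by
    rw [LinearMap.zero_apply, map_zero]; exact (mul_eq_zero.mp h2.symm).resolve_left h3))

section Killed

variable {k : Type u} [Field k] {A : Type u} [CommRing A] [Algebra k A]
  {K : Type u} [Field K] [Algebra k K]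

/-- A finitely generated chart module killed by a nonzero function is finite dimensional. -/
theorem finite_of_killed [IsDomain (K ⊗[k] A)] {x : A}
    (hfin : (Polynomial.aeval x : k[X] →ₐ[k] A).toRingHom.Finite) {P : Type u} [AddCommGroup P]
    [Module (K ⊗[k] A) P] [Module K P] [IsScalarTower K (K ⊗[k] A) P]
    [Module.Finite (K ⊗[k] A) P] {a : K ⊗[k] A} (ha : a ≠ 0) (hP : ∀ p : P, a • p = 0) :
    Module.Finite K P := by
  classical
  set X' : K ⊗[k] A := (1 : K) ⊗ₜ[k] x
  let := (Polynomial.aeval X' : K[X] →ₐ[K] K ⊗[k] A).toRingHom.toAlgebra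
  have hT : IsScalarTower K K[X] (K ⊗[k] A) :=
    IsScalarTower.of_algebraMap_eq fun c ↦ ((Polynomial.aeval X').commutes c).symm
  have : Module.Finite K[X] (K ⊗[k] A) := by
    obtain ⟨s, hs⟩ := exists_finset_span_pow (k := k) (A := A) K (P := K ⊗[k] A) hfin
    refine ⟨⟨s, eq_top_iff.mpr fun z _ ↦ ?_⟩⟩
    have hz : z ∈ Submodule.span K _ := hs ▸ (Submodule.mem_top : z ∈ (⊤ : Submodule K (K ⊗[k] A)))
    refine (Submodule.span_le.mpr ?_ : _ ≤
      (Submodule.span K[X] (s : Set (K ⊗[k] A))).restrictScalars K) hz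
    rintro _ ⟨e, l, hl, rfl⟩
    have : (X' ^ e • l : K ⊗[k] A) = (Polynomial.X ^ e : K[X]) • l := by
      rw [Algebra.smul_def (Polynomial.X ^ e : K[X]), smul_eq_mul]
      congr 1
      change X' ^ e = Polynomial.aeval X' (Polynomial.X ^ e)
      rw [map_pow, Polynomial.aeval_X]
    change X' ^ e • l ∈ Submodule.span K[X] (s : Set (K ⊗[k] A))
    rw [this]
    exact Submodule.smul_mem _ _ (Submodule.subset_span hl)
  have : Algebra.IsIntegral K[X] (K ⊗[k] A) := Algebra.IsIntegral.of_finite _ _
  -- some nonzero monic `q(x)` is a multiple of `a`, so kills `P`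
  obtain ⟨p, hp, hp0⟩ : ∃ p : K[X], p ∈ (Ideal.span {a}).comap (algebraMap K[X] _) ∧ p ≠ 0 :=
    Submodule.exists_mem_ne_zero_of_ne_bot fun h ↦
      ha (Ideal.span_singleton_eq_bot.mp (Ideal.eq_bot_of_comap_eq_bot h))
  obtain ⟨b, hb⟩ := Ideal.mem_span_singleton'.mp hp
  set q := p * Polynomial.C p.leadingCoeff⁻¹
  have hq : q.Monic := Polynomial.monic_mul_leadingCoeff_inv hp0
  have hkill : ∀ v : P, Polynomial.aeval X' q • v = 0 := fun v ↦ by
    rw [map_mul, show Polynomial.aeval X' p = b * a from hb.symm, mul_right_comm, mul_smul, hP,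
      smul_zero]
  obtain ⟨s, hs⟩ := exists_finset_span_pow (k := k) (A := A) K (P := P) hfin
  -- so finitely many `x ^ e • l` span
  let t : Finset P := s.biUnion fun l ↦ (Finset.range q.natDegree).image fun e ↦ X' ^ e • l
  refine ⟨⟨t, eq_top_iff.mpr ?_⟩⟩
  rw [← hs, Submodule.span_le]
  rintro _ ⟨e, l, hl, rfl⟩
  have hx : (X' ^ e : K ⊗[k] A) • l = Polynomial.aeval X' (Polynomial.X ^ e %ₘ q) • l := by
    conv_lhs => rw [show X' ^ e = Polynomial.aeval X' (Polynomial.X ^ e : K[X]) by simp,
      ← Polynomial.modByMonic_add_div (Polynomial.X ^ e) q]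
    rw [map_add, map_mul, add_smul, mul_smul, hkill, add_zero]
  change X' ^ e • l ∈ Submodule.span K (t : Set P)
  rw [hx, Polynomial.aeval_eq_sum_range, Finset.sum_smul]
  refine Submodule.sum_mem _ fun i hi ↦ ?_
  rw [smul_assoc]
  by_cases hi' : i < q.natDegree
  · exact Submodule.smul_mem _ _ (Submodule.subset_span
      (Finset.mem_biUnion.mpr ⟨l, hl, Finset.mem_image.mpr ⟨i, Finset.mem_range.mpr hi', rfl⟩⟩))
  · rw [Polynomial.coeff_eq_zero_of_degree_lt ((Polynomial.degree_modByMonic_lt _ hq).trans_le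
      (Polynomial.degree_le_natDegree.trans (by exact_mod_cast not_lt.mp hi'))), zero_smul]
    exact Submodule.zero_mem _

/-- The cokernel of an injective map of invertible chart modules is finite dimensional. -/
theorem finite_quotient_range [IsDomain (K ⊗[k] A)] {x : A}
    (hfin : (Polynomial.aeval x : k[X] →ₐ[k] A).toRingHom.Finite) {P Q : Type u} [AddCommGroup P]
    [Module (K ⊗[k] A) P] [AddCommGroup Q] [Module (K ⊗[k] A) Q]
    [Module K P] [IsScalarTower K (K ⊗[k] A) P]
    [Module K Q] [IsScalarTower K (K ⊗[k] A) Q] [Module.Invertible (K ⊗[k] A) Q]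
    {f : P →ₗ[K ⊗[k] A] Q} (hf : f ≠ 0) :
    Module.Finite K (Q ⧸ LinearMap.range (f.restrictScalars K)) := by
  obtain ⟨J, ⟨e⟩⟩ := Module.Invertible.exists_linearEquiv_ideal (K ⊗[k] A) Q
  obtain ⟨p, hp⟩ : ∃ p, f p ≠ 0 := by
    by_contra h; push Not at h; exact hf (LinearMap.ext h)
  have ha : (e (f p) : K ⊗[k] A) ≠ 0 := fun h ↦
    hp (e.injective (Subtype.ext (by rw [map_zero]; exact h)))
  have : Module.Finite K (Q ⧸ LinearMap.range f) := by
    refine finite_of_killed hfin ha fun z ↦ ?_
    induction z using Submodule.Quotient.induction_on with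
    | _ v =>
      rw [← Submodule.Quotient.mk_smul, Submodule.Quotient.mk_eq_zero]
      refine ⟨(e v : K ⊗[k] A) • p, ?_⟩
      rw [map_smul]
      exact e.injective (Subtype.ext (by
        rw [map_smul, map_smul, Submodule.coe_smul, Submodule.coe_smul, smul_eq_mul, smul_eq_mul,
          mul_comm]))
  exact Module.Finite.of_surjective
    (((Submodule.Quotient.restrictScalarsEquiv K (LinearMap.range f)).symm.trans
      (Submodule.quotEquivOfEq _ _ (LinearMap.range_restrictScalars (R := K) f).symm)).toLinearMap)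
    (LinearEquiv.surjective _)

end Killed

namespace Datum

variable {k : Type u} [Field k] {G : CurveCharts k} {B : Type u} [CommRing B] [Algebra k B]

/-- A map of data. -/
structure Hom (D D' : Datum G B) where
  /-- The linear map of sections over `U0`. -/
  f0 : D.P0 →ₗ[G.R0 B] D'.P0
  /-- The linear map of sections over `U1`. -/
  f1 : D.P1 →ₗ[G.R1 B] D'.P1
  /-- The linear map of sections over the overlap. -/
  f01 : D.P01 →ₗ[G.R01 B] D'.P01
  /-- The maps commute with restriction from `U0`. -/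
  comm0 : ∀ p, D'.r0 (f0 p) = f01 (D.r0 p)
  /-- The maps commute with restriction from `U1`. -/
  comm1 : ∀ p, D'.r1 (f1 p) = f01 (D.r1 p)

/-- An isomorphism as a map. -/
def Equiv.toHom {D D' : Datum G B} (e : Equiv D D') : Hom D D' where
  f0 := e.e0.toLinearMap
  f1 := e.e1.toLinearMap
  f01 := e.e01.toLinearMap
  comm0 := e.comm0
  comm1 := e.comm1

namespace Hom

variable {D D' : Datum G B} (φ : Hom D D')

/-- A map vanishing on the overlap vanishes on the first chart. -/
lemma f0_eq_zero (h : φ.f01 = 0) : φ.f0 = 0 :=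
  LinearMap.ext fun p ↦ D'.r0_inj (by simp [φ.comm0, h])

/-- A map vanishing on the overlap vanishes on the second chart. -/
lemma f1_eq_zero (h : φ.f01 = 0) : φ.f1 = 0 :=
  LinearMap.ext fun p ↦ D'.r1_inj (by simp [φ.comm1, h])

/-- A map vanishing on the first chart vanishes on the overlap. -/
lemma f01_eq_zero_of_f0 (h : φ.f0 = 0) : φ.f01 = 0 := LinearMap.ext fun z ↦ by
  obtain ⟨n, p, hp⟩ := D.r0_surj z
  have h1 := φ.comm0 p
  rw [h, hp, map_smul, LinearMap.zero_apply, map_zero] at h1
  exact ((G.xUnit B).isUnit.pow n).smul_eq_zero.mp h1.symm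

/-- A map vanishing on the second chart vanishes on the overlap. -/
lemma f01_eq_zero_of_f1 (h : φ.f1 = 0) : φ.f01 = 0 := LinearMap.ext fun z ↦ by
  obtain ⟨n, p, hp⟩ := D.r1_surj z
  have h1 := φ.comm1 p
  rw [h, hp, map_smul, LinearMap.zero_apply, map_zero] at h1
  exact ((G.xUnit B)⁻¹.isUnit.pow n).smul_eq_zero.mp h1.symm

/-- The map on Čech cochains. -/
def prodMap : D.P0 × D.P1 →ₗ[B] D'.P0 × D'.P1 :=
  (φ.f0.restrictScalars B).prodMap (φ.f1.restrictScalars B)

/-- A map of data commutes with the differentials. -/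
lemma d_comp_prodMap : D'.d ∘ₗ φ.prodMap = (φ.f01.restrictScalars B) ∘ₗ D.d := by
  ext p <;> simp [prodMap, Datum.d_apply, φ.comm0, φ.comm1]

/-- A map with bijective components is an isomorphism. -/
def toEquiv (h0 : Function.Bijective φ.f0) (h1 : Function.Bijective φ.f1)
    (h01 : Function.Bijective φ.f01) : Equiv D D' where
  e0 := LinearEquiv.ofBijective φ.f0 h0
  e1 := LinearEquiv.ofBijective φ.f1 h1
  e01 := LinearEquiv.ofBijective φ.f01 h01
  comm0 := φ.comm0
  comm1 := φ.comm1

variable [IsAlgClosed k] {K : Type u} [Field K] [Algebra k K] {E E' : Datum G K} (ψ : Hom E E')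

/-- A nonzero map over a field is injective on the first chart. -/
lemma injective0 (h : ψ.f01 ≠ 0) : Function.Injective ψ.f0 :=
  injective_of_invertible fun h0 ↦ h (ψ.f01_eq_zero_of_f0 h0)

/-- A nonzero map over a field is injective on the second chart. -/
lemma injective1 (h : ψ.f01 ≠ 0) : Function.Injective ψ.f1 :=
  injective_of_invertible fun h0 ↦ h (ψ.f01_eq_zero_of_f1 h0)

/-- A nonzero map over a field is injective on the overlap. -/
lemma injective01 (h : ψ.f01 ≠ 0) : Function.Injective ψ.f01 := injective_of_invertible h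

/-- The restriction of the cokernels to the overlap. -/
def cok0 : (E'.P0 ⧸ LinearMap.range (ψ.f0.restrictScalars K)) →ₗ[K]
    E'.P01 ⧸ LinearMap.range (ψ.f01.restrictScalars K) :=
  Submodule.mapQ _ _ E'.r0 <| by
    rintro _ ⟨p, rfl⟩
    exact ⟨E.r0 p, (ψ.comm0 p).symm⟩

/-- The restriction of the cokernels to the overlap. -/
def cok1 : (E'.P1 ⧸ LinearMap.range (ψ.f1.restrictScalars K)) →ₗ[K]
    E'.P01 ⧸ LinearMap.range (ψ.f01.restrictScalars K) :=
  Submodule.mapQ _ _ E'.r1 <| by
    rintro _ ⟨p, rfl⟩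
    exact ⟨E.r1 p, (ψ.comm1 p).symm⟩

/-- A map onto part of a quotient is surjective if that part is stable under an endomorphism which
is injective on the quotient and some power of it sends every class into that part. -/
private lemma surjective_of_pow_mem {F V W : Type u} [Field F] [AddCommGroup V] [Module F V]
    [AddCommGroup W] [Module F W] [Module.Finite F W] (N : Submodule F V) (u : Module.End F V)
    (hN : N ≤ N.comap u) (hu : ∀ z, u z ∈ N → z ∈ N) (g : W →ₗ[F] V ⧸ N)
    (hg : ∀ v ∈ LinearMap.range g, N.mapQ N u hN v ∈ LinearMap.range g)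
    (h : ∀ z, ∃ n : ℕ, Submodule.Quotient.mk ((u ^ n) z) ∈ LinearMap.range g) :
    Function.Surjective g := by
  set U := N.mapQ N u hN
  have hU : Function.Injective U := by
    rw [injective_iff_map_eq_zero]
    intro z hz
    obtain ⟨z, rfl⟩ := Submodule.mkQ_surjective _ z
    exact (Submodule.Quotient.mk_eq_zero N).mpr (hu z ((Submodule.Quotient.mk_eq_zero N).mp hz))
  let US := U.restrict hg
  have hUS : Function.Surjective US := LinearMap.injective_iff_surjective.mp fun v w hvw ↦
    Subtype.ext (hU (congrArg Subtype.val hvw))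
  intro z
  obtain ⟨z, rfl⟩ := Submodule.mkQ_surjective _ z
  obtain ⟨n, hn⟩ := h z
  induction n with
  | zero => simpa using hn
  | succ n ih =>
    refine ih ?_
    obtain ⟨v, hv⟩ := hUS ⟨_, hn⟩
    rw [← hU (a₁ := (v : V ⧸ N)) (a₂ := Submodule.Quotient.mk ((u ^ n) z))
      ((congrArg Subtype.val hv).trans
        (congrArg Submodule.Quotient.mk (by rw [pow_succ', Module.End.mul_apply])))]
    exact v.2

/-- For a nonzero map of data, restriction from the cokernel on the first chart to that on the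
overlap is surjective. -/
lemma surjective_cok0 (h : ψ.f01 ≠ 0) : Function.Surjective ψ.cok0 := by
  have : Module.Finite K (E'.P0 ⧸ LinearMap.range (ψ.f0.restrictScalars K)) :=
    finite_quotient_range G.finite0 fun h0 ↦ h (ψ.f01_eq_zero_of_f0 h0)
  refine surjective_of_pow_mem _ E'.u ?_ (fun z hz ↦ ?_) _ ?_ fun z ↦ ?_
  · rintro _ ⟨p, rfl⟩
    exact ⟨(G.xUnit K : G.R01 K) • p, map_smul ψ.f01 _ p⟩
  · obtain ⟨w, hw⟩ := hz
    refine ⟨(↑(G.xUnit K)⁻¹ : G.R01 K) • w, ?_⟩
    rw [LinearMap.coe_restrictScalars, map_smul,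
      show ψ.f01 w = (G.xUnit K : G.R01 K) • z from hw, ← mul_smul, Units.inv_mul, one_smul]
  · rintro _ ⟨w, rfl⟩
    obtain ⟨w, rfl⟩ := Submodule.mkQ_surjective _ w
    exact ⟨Submodule.Quotient.mk (G.X0 K • w), congrArg Submodule.Quotient.mk (E'.r0_smul _ w)⟩
  · obtain ⟨n, p, hp⟩ := E'.r0_surj z
    exact ⟨n, Submodule.Quotient.mk p,
      congrArg Submodule.Quotient.mk (hp.trans (E'.u_pow n z).symm)⟩

/-- For a nonzero map of data, restriction from the cokernel on the second chart to that on the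
overlap is surjective. -/
lemma surjective_cok1 (h : ψ.f01 ≠ 0) : Function.Surjective ψ.cok1 := by
  have : Module.Finite K (E'.P1 ⧸ LinearMap.range (ψ.f1.restrictScalars K)) :=
    finite_quotient_range G.finite1 fun h0 ↦ h (ψ.f01_eq_zero_of_f1 h0)
  refine surjective_of_pow_mem _ E'.v ?_ (fun z hz ↦ ?_) _ ?_ fun z ↦ ?_
  · rintro _ ⟨p, rfl⟩
    exact ⟨(↑(G.xUnit K)⁻¹ : G.R01 K) • p, map_smul ψ.f01 _ p⟩
  · obtain ⟨w, hw⟩ := hz
    refine ⟨(G.xUnit K : G.R01 K) • w, ?_⟩
    rw [LinearMap.coe_restrictScalars, map_smul,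
      show ψ.f01 w = (↑(G.xUnit K)⁻¹ : G.R01 K) • z from hw, ← mul_smul, Units.mul_inv, one_smul]
  · rintro _ ⟨w, rfl⟩
    obtain ⟨w, rfl⟩ := Submodule.mkQ_surjective _ w
    exact ⟨Submodule.Quotient.mk (G.Y1 K • w), congrArg Submodule.Quotient.mk (E'.r1_smul _ w)⟩
  · obtain ⟨n, p, hp⟩ := E'.r1_surj z
    exact ⟨n, Submodule.Quotient.mk p,
      congrArg Submodule.Quotient.mk (hp.trans (E'.v_pow n z).symm)⟩

/-- The cokernels are finite dimensional. -/
lemma finite_cok (h : ψ.f01 ≠ 0) :
    Module.Finite K (E'.P0 ⧸ LinearMap.range (ψ.f0.restrictScalars K)) ∧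
    Module.Finite K (E'.P1 ⧸ LinearMap.range (ψ.f1.restrictScalars K)) ∧
    Module.Finite K (E'.P01 ⧸ LinearMap.range (ψ.f01.restrictScalars K)) := by
  have h0 := finite_quotient_range (K := K) G.finite0 (f := ψ.f0)
    fun h0 ↦ h (ψ.f01_eq_zero_of_f0 h0)
  exact ⟨h0, finite_quotient_range G.finite1 fun h1 ↦ h (ψ.f01_eq_zero_of_f1 h1),
    Module.Finite.of_surjective _ (ψ.surjective_cok0 h)⟩

/-- **The Euler characteristic grows by the cokernels.** -/
theorem χ_eq (h : ψ.f01 ≠ 0) :
    E'.χ = E.χ + Module.finrank K (E'.P0 ⧸ LinearMap.range (ψ.f0.restrictScalars K)) +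
      Module.finrank K (E'.P1 ⧸ LinearMap.range (ψ.f1.restrictScalars K)) -
      Module.finrank K (E'.P01 ⧸ LinearMap.range (ψ.f01.restrictScalars K)) := by
  obtain ⟨h0, h1, h01⟩ := ψ.finite_cok h
  let q := ((LinearMap.range (ψ.f0.restrictScalars K)).mkQ).prodMap
    ((LinearMap.range (ψ.f1.restrictScalars K)).mkQ)
  have hrange : LinearMap.range ψ.prodMap = LinearMap.ker q := by
    rw [LinearMap.ker_prodMap, Submodule.ker_mkQ, Submodule.ker_mkQ]
    exact LinearMap.range_prodMap _ _
  let eQ := (Submodule.quotEquivOfEq _ _ hrange).trans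
    (q.quotKerEquivOfSurjective
      ((Submodule.mkQ_surjective _).prodMap (Submodule.mkQ_surjective _)))
  have : Module.Finite K ((E'.P0 × E'.P1) ⧸ LinearMap.range ψ.prodMap) :=
    Module.Finite.equiv eQ.symm
  have hinj : Function.Injective ψ.prodMap :=
    Function.Injective.prodMap (ψ.injective0 h) (ψ.injective1 h)
  have : FiniteDimensional K (LinearMap.ker ψ.prodMap) := by
    rw [LinearMap.ker_eq_bot.mpr hinj]; infer_instance
  have : FiniteDimensional K (LinearMap.ker (ψ.f01.restrictScalars K)) := by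
    rw [LinearMap.ker_eq_bot.mpr
      (show Function.Injective (ψ.f01.restrictScalars K) from ψ.injective01 h)]; infer_instance
  have hidx := congrArg LinearMap.index ψ.d_comp_prodMap
  rw [LinearMap.index_comp, LinearMap.index_comp, LinearMap.index_of_injective hinj,
    LinearMap.index_of_injective (f := ψ.f01.restrictScalars K) (ψ.injective01 h),
    eQ.finrank_eq, Module.finrank_prod] at hidx
  have e1 : E.χ = E.d.index := rfl
  have e2 : E'.χ = E'.d.index := rfl
  rw [e1, e2]
  push_cast at hidx ⊢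
  linarith

/-- A nonzero map does not lower the Euler characteristic. -/
theorem χ_le (h : ψ.f01 ≠ 0) : E.χ ≤ E'.χ := by
  obtain ⟨h0, h1, h01⟩ := ψ.finite_cok h
  have := LinearMap.finrank_le_finrank_of_surjective (ψ.surjective_cok0 h)
  rw [ψ.χ_eq h]
  omega

/-- **A nonzero map between data of equal Euler characteristic is an isomorphism.** -/
theorem bijective_of_χ_eq (h : ψ.f01 ≠ 0) (hχ : E'.χ ≤ E.χ) :
    Function.Bijective ψ.f0 ∧ Function.Bijective ψ.f1 ∧ Function.Bijective ψ.f01 := by
  obtain ⟨h0, h1, h01⟩ := ψ.finite_cok h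
  have hle0 := LinearMap.finrank_le_finrank_of_surjective (ψ.surjective_cok0 h)
  have hle1 := LinearMap.finrank_le_finrank_of_surjective (ψ.surjective_cok1 h)
  rw [ψ.χ_eq h] at hχ
  have e0 : Module.finrank K (E'.P0 ⧸ LinearMap.range (ψ.f0.restrictScalars K)) = 0 := by omega
  have e1 : Module.finrank K (E'.P1 ⧸ LinearMap.range (ψ.f1.restrictScalars K)) = 0 := by omega
  have e01 : Module.finrank K (E'.P01 ⧸ LinearMap.range (ψ.f01.restrictScalars K)) = 0 := by omega
  rw [Module.finrank_zero_iff, Submodule.Quotient.subsingleton_iff, LinearMap.range_eq_top]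
    at e0 e1 e01
  exact ⟨⟨ψ.injective0 h, e0⟩, ⟨ψ.injective1 h, e1⟩, ⟨ψ.injective01 h, e01⟩⟩

end Hom

end Datum

end

end Fermat.PIC
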