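import Fermat.Agent.PIC.Field.Points
import Fermat.Agent.PIC.Hilb.Values

/-!
# The covering lemma and line bundles as differences of divisors

For large `n`, the `n`-th twist of a degree zero datum minus rational points has a single section,
generating along the poles; over an algebraically closed field it is the line bundle of a sum of
points of the first chart.
-/

set_option autoImplicit false

universe u

namespace Fermat.PIC

noncomputable section

variable {k : Type u} [Field k] [IsAlgClosed k] {G : CurveCharts k} {K : Type u} [Field K]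
  [Algebra k K]

namespace Datum

variable (D : Datum G K)

/-- The sections vanishing at a closed point of the second chart. -/
def vanishingAt (Q : Ideal (G.R1 K)) : Submodule K D.H0 :=
  ((smulTop Q D.P1).restrictScalars K).comap
    ((LinearMap.snd K D.P0 D.P1).comp D.H0.subtype)

/-- No pole of the coordinate is a base point. -/
def FreeAtPoles : Prop :=
  ∀ Q : Ideal (G.R1 K), Q.IsMaximal → G.Y1 K ∈ Q → ∃ s : D.H0, s ∉ D.vanishingAt Q

/-- The coordinate has finitely many poles. -/
lemma finite_poles : {Q : Ideal (G.R1 K) | Q.IsMaximal ∧ G.Y1 K ∈ Q}.Finite := by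
  refine ((Ideal.finite_factors (I := Ideal.span {G.Y1 K}) (mt Ideal.span_singleton_eq_bot.mp
    (G.Y1_ne_zero K))).image IsDedekindDomain.HeightOneSpectrum.asIdeal).subset ?_
  rintro Q ⟨hQ, hY⟩
  exact ⟨⟨Q, hQ.isPrime, fun h ↦ G.Y1_ne_zero K (by simpa [h] using hY)⟩,
    Ideal.dvd_iff_le.mpr ((Ideal.span_singleton_le_iff_mem _).mpr hY), rfl⟩

/-- Removing a suitable rational point lowers `h⁰` by one and keeps `h¹ = 0` and freeness at the
poles. -/
theorem exists_point_step (m : ℕ) (h1 : D.h1 = 0) (h0 : D.h0 = m + 2) (hfree : D.FreeAtPoles) :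
    ∃ σ : G.A0 →ₐ[k] k,
      (D.sub (Div.point0 ((Algebra.ofId k K).comp σ))).h1 = 0 ∧
      (D.sub (Div.point0 ((Algebra.ofId k K).comp σ))).h0 = m + 1 ∧
      (D.sub (Div.point0 ((Algebra.ofId k K).comp σ))).FreeAtPoles := by
  classical
  have hne : ∀ s : D.H0, s ≠ 0 → s.1.1 ≠ 0 := fun s hs h ↦ hs (by
    have hz : D.r0 s.1.1 = D.r1 s.1.2 := sub_eq_zero.mp ((D.d_apply s.1).symm.trans s.2)
    exact Subtype.ext (Prod.ext h (D.r1_inj (by rw [← hz, h, map_zero]; exact (map_zero _).symm))))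
  obtain ⟨s0, hs0⟩ : ∃ s : D.H0, s ≠ 0 := Module.finrank_pos_iff_exists_ne_zero.mp
    (show 0 < D.h0 by omega)
  have hw : ∀ Q : Ideal (G.R1 K), ∃ s : D.H0, s ≠ 0 ∧
      (D.vanishingAt Q ≠ ⊥ → s ∈ D.vanishingAt Q) := fun Q ↦ by
    by_cases h : D.vanishingAt Q = ⊥
    · exact ⟨s0, hs0, fun h' ↦ absurd h h'⟩
    · obtain ⟨s, hs, hs'⟩ := Submodule.exists_mem_ne_zero_of_ne_bot h
      exact ⟨s, hs', fun _ ↦ hs⟩
  choose w hw0 hwQ using hw
  let S : Finset D.P0 := insert s0.1.1 ((finite_poles (G := G) (K := K)).toFinset.image fun Q ↦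
    (w Q).1.1)
  -- a point avoiding a nonzero section, and one vanishing at each pole
  obtain ⟨σ, hσ⟩ := D.exists_pt_avoiding S fun s hs ↦ by
    rcases Finset.mem_insert.mp hs with rfl | hs
    · exact hne s0 hs0
    · obtain ⟨Q, -, rfl⟩ := Finset.mem_image.mp hs
      exact hne _ (hw0 Q)
  set P := Div.point0 ((Algebra.ofId k K).comp σ)
  let ι : (D.sub P).H0 →ₗ[K] D.H0 := LinearMap.codRestrict _
    ((D.subIncl P).prodMap.comp (D.sub P).H0.subtype) fun z ↦ by
      rw [LinearMap.mem_ker]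
      refine (LinearMap.congr_fun (D.subIncl P).d_comp_prodMap z.1).trans ?_
      exact (congrArg ((D.subIncl P).f01.restrictScalars K) z.2).trans (map_zero _)
  have hι : Function.Injective ι := fun a b e ↦ by
    have e' := congrArg Subtype.val e
    exact Subtype.ext (Prod.ext (Subtype.ext (congrArg Prod.fst e'))
      (Subtype.ext (congrArg Prod.snd e')))
  have hnot : ∀ s : D.H0, s.1.1 ∈ S → s ∉ LinearMap.range ι := by
    rintro s hs ⟨z, rfl⟩
    exact hσ _ hs z.1.1.2
  -- removing it drops `h0` by exactly one, keeping `h1 = 0`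
  have hlt : (D.sub P).h0 < D.h0 := by
    refine lt_of_le_of_ne (LinearMap.finrank_le_finrank_of_injective hι) fun h ↦ ?_
    have := (LinearMap.injective_iff_surjective_of_finrank_eq_finrank h).mp hι
    exact hnot s0 (Finset.mem_insert_self _ _) (this s0)
  have hχ := D.χ_sub P
  rw [Div.deg_point0, χ, χ, h1, h0] at hχ
  have h1' : (D.sub P).h1 = 0 := by omega
  have h0' : (D.sub P).h0 = m + 1 := by omega
  refine ⟨σ, h1', h0', fun Q hQ hY ↦ ?_⟩
  by_contra hall
  push Not at hall
  -- a pole at which all sections vanish would give a section killed at `σ`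
  have hle : LinearMap.range ι ≤ D.vanishingAt Q := by
    rintro _ ⟨z, rfl⟩
    have hz : z.1.2 ∈ smulTop Q (smulTop P.I1 D.P1) := hall z
    have := Submodule.mem_map_of_mem (f := (smulTop P.I1 D.P1).subtype) hz
    rw [Submodule.map_smul'', Submodule.map_top, Submodule.range_subtype] at this
    exact Submodule.smul_mono le_rfl le_top this
  have hr : Module.finrank K (LinearMap.range ι) = m + 1 := by
    rw [LinearMap.finrank_range_of_inj hι]; exact h0'
  obtain ⟨t, ht⟩ := hfree Q hQ hY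
  have hlt' : Module.finrank K (D.vanishingAt Q) < D.h0 :=
    Submodule.finrank_lt fun h ↦ ht (h ▸ Submodule.mem_top)
  have heq : LinearMap.range ι = D.vanishingAt Q :=
    Submodule.eq_of_le_of_finrank_le hle (by omega)
  have hQb : D.vanishingAt Q ≠ ⊥ := fun h ↦ by
    rw [← heq] at h
    rw [h, finrank_bot] at hr
    omega
  refine hnot (w Q) (Finset.mem_insert_of_mem (Finset.mem_image.mpr
    ⟨Q, (finite_poles (G := G) (K := K)).mem_toFinset.mpr ⟨hQ, hY⟩, rfl⟩)) ?_
  rw [heq]
  exact hwQ Q hQb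

/-- Removing rational points down to a single section. -/
theorem exists_points (m : ℕ) :
    ∀ D : Datum G K, D.h1 = 0 → D.h0 = m + 1 → D.FreeAtPoles →
      ∃ σ : Fin m → (G.A0 →ₐ[k] k),
        let N := D.sub (∏ i, Div.point0 ((Algebra.ofId k K).comp (σ i)))
        N.h1 = 0 ∧ N.h0 = 1 ∧ ∃ s : N.H0, N.values1 s.1.2 ⊔ Ideal.span {G.Y1 K} = ⊤ := by
  induction m with
  | zero =>
    intro D h1 h0 hfree
    -- no point left: the one section generates at the poles, by freeness there
    have key : ∀ N : Datum G K, Equiv D N → N.h1 = 0 ∧ N.h0 = 1 ∧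
        ∃ s : N.H0, N.values1 s.1.2 ⊔ Ideal.span {G.Y1 K} = ⊤ := fun N e ↦ by
      refine ⟨by rw [← e.h1_eq, h1], by rw [← e.h0_eq, h0], ?_⟩
      obtain ⟨s, hs⟩ : ∃ s : D.H0, s ≠ 0 := Module.finrank_pos_iff_exists_ne_zero.mp
        (show 0 < D.h0 by omega)
      refine ⟨e.H0Equiv s, ?_⟩
      change N.values1 (e.e1 s.1.2) ⊔ Ideal.span {G.Y1 K} = ⊤
      rw [e.values1_eq]
      by_contra hne
      obtain ⟨Q, hQ, hle⟩ := Ideal.exists_le_maximal _ hne
      obtain ⟨t, ht⟩ := hfree Q hQ (hle (Submodule.mem_sup_right (Ideal.mem_span_singleton_self _)))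
      obtain ⟨c, rfl⟩ := (finrank_eq_one_iff_of_nonzero' s hs).mp (show D.h0 = 1 from h0) t
      refine ht (Submodule.smul_mem _ c ?_)
      change s.1.2 ∈ smulTop Q D.P1
      refine Submodule.smul_mono (le_sup_left.trans hle) le_rfl ?_
      exact (values_smul_top_eq_span (R := G.R1 K) (P := D.P1) s.1.2).ge
        (Submodule.mem_span_singleton_self _)
    refine ⟨Fin.elim0, key _ ?_⟩
    rw [Finset.univ_eq_empty, Finset.prod_empty]
    exact D.subOne.symm
  | succ m ih =>
    intro D h1 h0 hfree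
    -- remove one point and recurse
    obtain ⟨τ, h1', h0', hfree'⟩ := D.exists_point_step m h1 h0 hfree
    obtain ⟨σ, hN1, hN0, s, hs⟩ := ih _ h1' h0' hfree'
    refine ⟨Fin.cons τ σ, ?_⟩
    rw [Fin.prod_univ_succ]
    simp only [Fin.cons_zero, Fin.cons_succ]
    -- removing twice is removing the product
    let e := D.subSub (Div.point0 ((Algebra.ofId k K).comp τ))
      (∏ i, Div.point0 ((Algebra.ofId k K).comp (σ i)))
    refine ⟨e.h1_eq ▸ hN1, e.h0_eq ▸ hN0, e.H0Equiv s, ?_⟩
    have hv := e.values1_eq s.1.2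
    exact (congrArg (· ⊔ Ideal.span {G.Y1 K}) hv).trans hs

/-- A section whose values generate at all poles shows that no pole is a base point. -/
lemma freeAtPoles_of_section (s : D.H0) (h : D.values1 s.1.2 ⊔ Ideal.span {G.Y1 K} = ⊤) :
    D.FreeAtPoles := by
  refine fun Q hQ hY ↦ ⟨s, fun hs ↦ hQ.ne_top (eq_top_iff.mpr ?_)⟩
  rw [← h]
  refine sup_le ?_ ((Ideal.span_singleton_le_iff_mem _).mpr hY)
  have hle : smulTop (D.values1 s.1.2) D.P1 ≤ smulTop Q D.P1 := by
    refine (values_smul_top_eq_span (R := G.R1 K) (P := D.P1) s.1.2).le.trans ?_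
    exact Submodule.span_le.mpr (Set.singleton_subset_iff.mpr hs)
  have : smulTop (D.values1 s.1.2 ⊔ Q) D.P1 = smulTop Q D.P1 :=
    le_antisymm ((Submodule.sup_smul _ _ _).trans_le (sup_le hle le_rfl))
      (Submodule.smul_mono le_sup_right le_rfl)
  exact le_sup_left.trans_eq (smulTop_injective D.P1 this)

variable (G) in
/-- **The covering lemma.** For `n` large, a datum of degree zero twisted by `n` and lowered by
suitable rational points has one section and no first cohomology, generated at all poles. -/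
theorem exists_cover_bound :
    ∃ n0 : ℕ, ∀ (K : Type u) [Field K] [Algebra k K] (D : Datum G K), D.degree = 0 →
      ∀ n : ℕ, n0 ≤ n → ∃ σ : Fin (n * G.deg - G.genus) → (G.A0 →ₐ[k] k),
        let N := (D.twist n).sub (∏ i, Div.point0 ((Algebra.ofId k K).comp (σ i)))
        N.h1 = 0 ∧ N.h0 = 1 ∧ ∃ s : N.H0, N.values1 s.1.2 ⊔ Ideal.span {G.Y1 K} = ⊤ := by
  obtain ⟨c, hc⟩ := exists_h1_bound G
  refine ⟨c.toNat + G.genus + 1, fun K _ _ D hD n hn ↦ ?_⟩
  have hd : n ≤ n * G.deg := Nat.le_mul_of_pos_right n G.deg_pos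
  have hn' : ((n - 1 : ℕ) : ℤ) * G.deg = (n : ℤ) * G.deg - G.deg := by
    rw [Nat.cast_sub (by omega)]; push_cast; ring
  have hn1 : n - 1 ≤ (n - 1) * G.deg := Nat.le_mul_of_pos_right _ G.deg_pos
  have hdn := D.degree_twist (n : ℤ)
  rw [hD, zero_add] at hdn
  have h1 : (D.twist (n : ℤ)).h1 = 0 := hc K _ (by omega)
  have h0 : (D.twist (n : ℤ)).h0 = (n * G.deg - G.genus) + 1 := by
    have := h0_eq_of_h1 _ h1
    rw [χ_eq_degree, hdn] at this
    omega
  have hpred : ((D.twist (n : ℤ)).twist (-1)).h1 = 0 := hc K _ (by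
    rw [degree_twist, hdn]; omega)
  obtain ⟨s, hs⟩ := (D.twist (n : ℤ)).exists_section_coprime hpred
  exact exists_points _ _ h1 h0 ((D.twist (n : ℤ)).freeAtPoles_of_section s hs)

variable (G) in
/-- **Degree zero data come from sums of points.** For `n` large, over an algebraically closed
field, a degree zero datum twisted `n` times is the line bundle of a sum of `n * deg` points. -/
theorem exists_pos_bound :
    ∃ n0 : ℕ, ∀ (K : Type u) [Field K] [Algebra k K] [IsAlgClosed K] (D : Datum G K),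
      D.degree = 0 → ∀ n : ℕ, n0 ≤ n → ∃ σ : Fin (n * G.deg) → (G.A0 →ₐ[k] K),
        Nonempty (Equiv (D.twist n) (pos (∏ i, Div.point0 (σ i)))) := by
  obtain ⟨c, hc⟩ := exists_h1_bound G
  refine ⟨c.toNat + 1, fun K _ _ _ D hD n hn ↦ ?_⟩
  have hn1 : n - 1 ≤ (n - 1) * G.deg := Nat.le_mul_of_pos_right _ G.deg_pos
  have hn' : ((n - 1 : ℕ) : ℤ) * G.deg = (n : ℤ) * G.deg - G.deg := by
    rw [Nat.cast_sub (by omega)]; push_cast; ring
  have hpred : ((D.twist (n : ℤ)).twist (-1)).h1 = 0 := hc K _ (by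
    rw [degree_twist, degree_twist, hD]; omega)
  obtain ⟨s, hs⟩ := (D.twist (n : ℤ)).exists_section_coprime hpred
  have hs0 : s ≠ 0 := fun h ↦ by
    have hv : (D.twist (n : ℤ)).values1 s.1.2 = ⊥ := by
      rw [h, Submodule.coe_zero, Prod.snd_zero, values1, map_zero, LinearMap.range_zero]
    rw [hv, bot_sup_eq] at hs
    have hd := G.finrank_quotient_Y1 K
    rw [hs, Module.finrank_zero_of_subsingleton] at hd
    exact (G.deg_pos).ne hd
  obtain ⟨E, h0E, h1E, hdeg⟩ := (D.twist (n : ℤ)).exists_div_of_section s hs0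
  obtain ⟨m, σ, hσ⟩ := CurveCharts.exists_eq_prod_ker_ev0 E.I0 (ne_bot_of_invertible E.I0)
  have hE : E = ∏ i, Div.point0 (σ i) := Div.ext_of_coprime (h1E ▸ hs)
    (Div.prod_coprime _ _ fun i _ ↦ Div.point0_coprime _) (by rw [hσ, Div.prod_I0]; rfl)
  have hm : m = n * G.deg := by
    rw [degree_twist, hD, zero_add, hE, Div.deg_prod_point0, Fintype.card_fin] at hdeg
    exact_mod_cast hdeg.symm
  subst hm
  exact ⟨σ, hE ▸ Equiv.ofSection (D.twist (n : ℤ)) E s h0E h1E⟩

end Datum

end

end Fermat.PIC
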