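import Fermat.Agent.PIC.Field.DivDeg
import Fermat.Agent.PIC.Chart.Fibres
import Fermat.Agent.PIC.Chart.TrivialH0

/-!
# Degrees over a field

Euler characteristics of twists, invariance under extension of the field, and a uniform bound for
the vanishing of `H¹`.
-/

set_option autoImplicit false
set_option linter.unusedSectionVars false

universe u

namespace Fermat.PIC

noncomputable section

variable {k : Type u} [Field k] (G : CurveCharts k)

/-- The degree of the polar divisor of the coordinate. -/
def CurveCharts.deg : ℕ := Module.finrank k (G.A1 ⧸ Ideal.span {G.y})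

/-- The polar divisor of the coordinate has the same degree over every field. -/
lemma CurveCharts.finrank_quotient_Y1 (K : Type u) [Field K] [Algebra k K] :
    Module.finrank K (G.R1 K ⧸ Ideal.span {G.Y1 K}) = G.deg := by
  have e := (Algebra.TensorProduct.tensorQuotientEquiv (R := k) K G.A1 K
    (Ideal.span {G.y})).toLinearEquiv
  have hmap : (Ideal.span {G.y}).map
      (Algebra.TensorProduct.includeRight : G.A1 →ₐ[k] G.R1 K) = Ideal.span {G.Y1 K} := by
    rw [Ideal.map_span, Set.image_singleton]; rfl
  rw [← hmap, ← e.finrank_eq, Module.finrank_baseChange, CurveCharts.deg]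

variable [IsAlgClosed k] {G} {K : Type u} [Field K] [Algebra k K]

/-- The polar divisor of the coordinate is finite. -/
instance CurveCharts.finite_quot_Y1 : Module.Finite K (G.R1 K ⧸ Ideal.span {G.Y1 K}) :=
  CurveCharts.finite_quot_R1 (mt Ideal.span_singleton_eq_bot.mp (G.Y1_ne_zero K))

variable (G) in
/-- The coordinate has a pole. -/
theorem CurveCharts.deg_pos : 0 < G.deg := by
  rw [← G.finrank_quotient_Y1 k]
  have : Nontrivial (G.R1 k ⧸ Ideal.span {G.Y1 k}) := Ideal.Quotient.nontrivial_iff.mpr fun h ↦ by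
    have := congrArg (Ideal.map (G.εB k).toRingHom) h
    rw [Ideal.map_span, Set.image_singleton, Ideal.map_top] at this
    exact zero_ne_one (α := k) (by
      have h1 : (1 : k) ∈ Ideal.span {G.εB k (G.Y1 k)} := this ▸ Submodule.mem_top
      rw [G.εB_Y1 k, Ideal.span_singleton_eq_bot.mpr rfl] at h1
      exact ((Submodule.mem_bot k).mp h1).symm)
  exact Module.finrank_pos

namespace Datum

variable (D : Datum G K)

/-- A nonzero map does not raise `h¹`. -/
theorem Hom.h1_le {D D' : Datum G K} (φ : Hom D D') (h : φ.f01 ≠ 0) : D'.h1 ≤ D.h1 := by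
  let g : D.H1 →ₗ[K] D'.H1 := Submodule.mapQ _ _ (φ.f01.restrictScalars K) <| by
    rintro _ ⟨p, rfl⟩
    exact ⟨φ.prodMap p, LinearMap.congr_fun φ.d_comp_prodMap p⟩
  refine LinearMap.finrank_le_finrank_of_surjective (f := g) fun z ↦ ?_
  obtain ⟨z, rfl⟩ := Submodule.mkQ_surjective _ z
  obtain ⟨v, hv⟩ := φ.surjective_cok0 h (Submodule.Quotient.mk z)
  obtain ⟨v, rfl⟩ := Submodule.mkQ_surjective _ v
  obtain ⟨w, hw⟩ := (Submodule.Quotient.eq _).mp hv.symm
  refine ⟨Submodule.Quotient.mk w, (Submodule.Quotient.eq _).mpr ?_⟩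
  refine ⟨(-v, 0), ?_⟩
  rw [D'.d_apply, map_neg, map_zero, sub_zero, hw]
  abel

/-- Isomorphic data have the same `h¹`. -/
theorem Equiv.h1_eq {D D' : Datum G K} (e : Equiv D D') : D.h1 = D'.h1 :=
  e.H1Equiv.finrank_eq

/-- Isomorphic data have the same `h⁰`. -/
theorem Equiv.h0_eq {D D' : Datum G K} (e : Equiv D D') : D.h0 = D'.h0 :=
  e.H0Equiv.finrank_eq

/-- First cohomology vanishes exactly when the differential is surjective. -/
lemma h1_eq_zero_iff : D.h1 = 0 ↔ Function.Surjective D.d := by
  rw [h1, Module.finrank_zero_iff, Submodule.Quotient.subsingleton_iff, LinearMap.range_eq_top]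

/-- Without first cohomology `h⁰` is the Euler characteristic. -/
lemma h0_eq_of_h1 (h : D.h1 = 0) : (D.h0 : ℤ) = D.χ := by rw [χ, h]; simp

/-- Twisting down by the polar divisor. -/
theorem χ_twist_neg_one : (D.twist (-1)).χ = D.χ - G.deg := by
  have h : D.predIncl.f01 ≠ 0 := D.predIncl.ne_zero_of_injective fun _ _ e ↦ e
  have a0 : Module.finrank K (D.P0 ⧸ LinearMap.range (D.predIncl.f0.restrictScalars K)) = 0 := by
    have : Subsingleton (_ ⧸ LinearMap.range (D.predIncl.f0.restrictScalars K)) :=
      Submodule.Quotient.subsingleton_iff.mpr (LinearMap.range_eq_top.mpr fun p ↦ ⟨p, rfl⟩)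
    exact Module.finrank_zero_of_subsingleton
  have a01 : Module.finrank K (D.P01 ⧸ LinearMap.range (D.predIncl.f01.restrictScalars K)) = 0 := by
    have : Subsingleton (_ ⧸ LinearMap.range (D.predIncl.f01.restrictScalars K)) :=
      Submodule.Quotient.subsingleton_iff.mpr (LinearMap.range_eq_top.mpr fun p ↦ ⟨p, rfl⟩)
    exact Module.finrank_zero_of_subsingleton
  have a1 := finrank_quotient_range (K := K) (Ideal.span {G.Y1 K}) (f := D.predIncl.f1)
    D.range_predIncl_f1
  rw [G.finrank_quotient_Y1] at a1
  have := D.predIncl.χ_eq h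
  rw [a0, a1, a01] at this
  omega

/-- **The Euler characteristic of a twist.** -/
theorem χ_twist (n : ℤ) : (D.twist n).χ = D.χ + n * G.deg := by
  have step : ∀ m : ℤ, (D.twist (m + -1)).χ = (D.twist m).χ - G.deg := fun m ↦
    (D.twistTwist m (-1)).χ_eq.symm.trans (D.twist m).χ_twist_neg_one
  induction n using Int.induction_on with
  | zero => rw [D.twistZero.χ_eq]; simp
  | succ i ih =>
    have h1 := step ((i : ℤ) + 1)
    rw [add_neg_cancel_right, ih] at h1
    linear_combination -h1
  | pred i ih =>
    rw [sub_eq_add_neg, step, ih]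
    ring

/-- The trivial bundle has degree zero. -/
theorem degree_trivial : (trivial G K).degree = 0 := sub_self _

/-- Twisting changes the degree by multiples of the degree of the polar divisor. -/
theorem degree_twist (n : ℤ) : (D.twist n).degree = D.degree + n * G.deg := by
  rw [degree, degree, χ_twist]; ring

/-- A section cutting out a divisor determines the degree. -/
theorem degree_eq_of_section (E : Div G K) (s : D.H0) (hs : s ≠ 0)
    (h0 : Submodule.span (G.R0 K) {s.1.1} = smulTop E.I0 D.P0)
    (h1 : Submodule.span (G.R1 K) {s.1.2} = smulTop E.I1 D.P1) : D.degree = E.deg := by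
  let φ := Hom.ofSection D s
  have h01 : Submodule.span (G.R01 K) {D.r0 s.1.1} = smulTop E.I01 D.P01 :=
    span_map_singleton_eq (G.isChartMap0 K) D.r0.toAddMonoidHom D.r0_smul D.r0_surj h0
  have a0 := finrank_quotient_range (K := K) E.I0 (f := φ.f0)
    ((LinearMap.span_singleton_eq_range (G.R0 K) D.P0 s.1.1).symm.trans h0)
  have a1 := finrank_quotient_range (K := K) E.I1 (f := φ.f1)
    ((LinearMap.span_singleton_eq_range (G.R1 K) D.P1 s.1.2).symm.trans h1)
  have a01 := finrank_quotient_range (K := K) E.I01 (f := φ.f01)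
    ((LinearMap.span_singleton_eq_range (G.R01 K) D.P01 (D.r0 s.1.1)).symm.trans h01)
  have := φ.χ_eq (Hom.ofSection_f01_ne_zero hs)
  rw [a0, a1, a01] at this
  rw [degree, Div.deg]
  omega

/-- The Euler characteristic is invariant under extension of the field. -/
theorem BC.χ_eq {L : Type u} [Field L] [Algebra k L] [Algebra K L] [IsScalarTower k K L]
    {D : Datum G K} {D' : Datum G L} (bc : BC (IsScalarTower.toAlgHom k K L) D D') :
    D'.χ = D.χ := by
  obtain ⟨f, hf⟩ := D.exists_χ_locallyConstant
  rw [hf L D' bc, hf K D (BC.copy (AlgHom.ext fun _ ↦ rfl) (BC.id D)),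
    Subsingleton.elim (fieldPoint K L) (fieldPoint K K)]

variable (G K) in
/-- The Euler characteristic of the trivial bundle does not depend on the field. -/
theorem χ_trivial_eq : (trivial G K).χ = (trivial G k).χ :=
  (BC.trivial (G := G) (IsScalarTower.toAlgHom k k K)).χ_eq

variable (G K) in
/-- The Euler characteristic of the trivial bundle. -/
theorem χ_trivial : (trivial G K).χ = 1 - G.genus := by
  rw [χ_trivial_eq G K, χ, h0_trivial, CurveCharts.genus]; rfl

/-- Riemann's formula. -/
theorem χ_eq_degree : D.χ = D.degree + 1 - G.genus := by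
  rw [degree, χ_trivial]; ring

/-- The degree is invariant under extension of the field. -/
theorem BC.degree_eq {L : Type u} [Field L] [Algebra k L] [Algebra K L] [IsScalarTower k K L]
    {D : Datum G K} {D' : Datum G L} (bc : BC (IsScalarTower.toAlgHom k K L) D D') :
    D'.degree = D.degree := by
  rw [degree, degree, bc.χ_eq, χ_trivial_eq G L, χ_trivial_eq G K]

variable (G) in
/-- **A uniform bound for the vanishing of `H¹`.** -/
theorem exists_h1_bound :
    ∃ n0 : ℤ, ∀ (K : Type u) [Field K] [Algebra k K] (D : Datum G K),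
      n0 ≤ D.degree → D.h1 = 0 := by
  obtain ⟨n, hn⟩ := (trivial G k).exists_twist_d_surjective
  refine ⟨n * G.deg + G.genus, fun K _ _ D hD ↦ ?_⟩
  have bc := (BC.trivial (G := G) (IsScalarTower.toAlgHom k k K)).twist (n : ℤ)
  have htriv := (h1_eq_zero_iff _).mpr (bc.d_surjective hn)
  have hpos : 0 < (D.twist (-(n : ℤ))).h0 := by
    have h1 := D.χ_twist (-(n : ℤ))
    have h2 := D.χ_eq_degree
    rw [χ, neg_mul] at h1
    omega
  obtain ⟨s, hs⟩ : ∃ s : (D.twist (-(n : ℤ))).H0, s ≠ 0 :=
    Module.finrank_pos_iff_exists_ne_zero.mp hpos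
  have hle := ((Hom.ofSection _ s).twist (n : ℤ)).h1_le (Hom.ofSection_f01_ne_zero hs)
  rw [(D.twistTwist (-(n : ℤ)) n).h1_eq, neg_add_cancel, D.twistZero.h1_eq] at hle
  omega

end Datum

end

end Fermat.PIC
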