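import Fermat.Agent.PIC.Field.Compare
import Fermat.Agent.PIC.Ops.Pos

/-!
# Basic maps of data: sections, twists, inclusions of divisors

And vanishing of `H¹` after enough twisting.
-/

set_option autoImplicit false

universe u

namespace Fermat.PIC

noncomputable section

namespace Datum

variable {k : Type u} [Field k] {G : CurveCharts k} {B : Type u} [CommRing B] [Algebra k B]

/-- The map from the trivial bundle given by a global section. -/
def Hom.ofSection (D : Datum G B) (s : D.H0) : Hom (trivial G B) D where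
  f0 := LinearMap.toSpanSingleton (G.R0 B) D.P0 s.1.1
  f1 := LinearMap.toSpanSingleton (G.R1 B) D.P1 s.1.2
  f01 := LinearMap.toSpanSingleton (G.R01 B) D.P01 (D.r0 s.1.1)
  comm0 a := D.r0_smul a s.1.1
  comm1 (a : G.R1 B) := by
    have hs : D.r0 s.1.1 = D.r1 s.1.2 := sub_eq_zero.mp ((D.d_apply s.1).symm.trans s.2)
    change D.r1 (a • s.1.2) = G.ρ1 B a • D.r0 s.1.1
    rw [D.r1_smul, hs]

/-- A nonzero section gives a nonzero map. -/
lemma Hom.ofSection_f01_ne_zero {D : Datum G B} {s : D.H0} (h : s ≠ 0) :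
    (Hom.ofSection D s).f01 ≠ 0 := by
  intro h0
  have h1 : D.r0 s.1.1 = 0 := by
    have := LinearMap.congr_fun h0 (1 : G.R01 B)
    change (1 : G.R01 B) • D.r0 s.1.1 = 0 at this
    rwa [one_smul] at this
  have h2 : D.r1 s.1.2 = 0 := by
    rw [← h1]; exact (sub_eq_zero.mp ((D.d_apply s.1).symm.trans s.2)).symm
  refine h (Subtype.ext (Prod.ext ?_ ?_))
  · exact D.r0_inj (h1.trans (map_zero _).symm)
  · exact D.r1_inj (h2.trans (map_zero _).symm)

/-- Twisting a map. -/
def Hom.twist {D D' : Datum G B} (φ : Hom D D') (n : ℤ) : Hom (D.twist n) (D'.twist n) where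
  f0 := φ.f0
  f1 := φ.f1
  f01 := φ.f01
  comm0 := φ.comm0
  comm1 p := by
    change (↑(G.xUnit B ^ n) : G.R01 B) • D'.r1 (φ.f1 p) =
      φ.f01 ((↑(G.xUnit B ^ n) : G.R01 B) • D.r1 p)
    rw [φ.comm1, map_smul]

/-- The inclusion of a twist by a divisor. -/
def subIncl (D : Datum G B) (E : Div G B) : Hom (D.sub E) D where
  f0 := (smulTop E.I0 D.P0).subtype
  f1 := (smulTop E.I1 D.P1).subtype
  f01 := (smulTop E.I01 D.P01).subtype
  comm0 _ := rfl
  comm1 _ := rfl

/-- The inclusion of the twist by minus the polar divisor. -/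
def predIncl (D : Datum G B) : Hom (D.twist (-1)) D where
  f0 := LinearMap.id
  f1 := G.Y1 B • LinearMap.id
  f01 := LinearMap.id
  comm0 _ := rfl
  comm1 (p : D.P1) := by
    change D.r1 (G.Y1 B • p) = (↑(G.xUnit B ^ (-1 : ℤ)) : G.R01 B) • D.r1 p
    rw [D.r1_smul, zpow_neg_one]
    rfl

/-- The twist by minus the polar divisor is `y` times the sections on the second chart. -/
lemma range_predIncl_f1 (D : Datum G B) :
    LinearMap.range D.predIncl.f1 = Ideal.span {G.Y1 B} • (⊤ : Submodule (G.R1 B) D.P1) := by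
  rw [Submodule.ideal_span_singleton_smul]
  ext p
  constructor
  · rintro ⟨q, rfl⟩
    exact Submodule.smul_mem_pointwise_smul (R := G.R1 B) (M := D.P1) q (G.Y1 B) ⊤ Submodule.mem_top
  · rintro ⟨q, -, rfl⟩; exact ⟨q, rfl⟩

/-- Every class in `H¹` dies after twisting enough. -/
lemma exists_mem_range_twist (D : Datum G B) (z : D.P01) :
    ∃ m : ℕ, ∀ n : ℕ, m ≤ n → z ∈ LinearMap.range (D.twist n).d := by
  obtain ⟨m, p, hp⟩ := D.r1_surj z
  refine ⟨m, fun n hn ↦ ?_⟩
  obtain ⟨j, rfl⟩ := Nat.exists_eq_add_of_le hn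
  refine ⟨((0 : D.P0), -(G.Y1 B ^ j • p)), ?_⟩
  change D.r0 0 - (↑(G.xUnit B ^ ((m + j : ℕ) : ℤ)) : G.R01 B) • D.r1 (-(G.Y1 B ^ j • p)) = z
  rw [map_zero, map_neg, smul_neg, zero_sub, neg_neg, D.r1_smul, hp, map_pow, zpow_natCast,
    ← mul_smul, ← mul_smul, Units.val_pow_eq_pow_val,
    show G.ρ1 B (G.Y1 B) = (↑(G.xUnit B)⁻¹ : G.R01 B) from rfl, mul_assoc, ← pow_add,
    add_comm j m, ← mul_pow, Units.mul_inv, one_pow, one_smul]

/-- Some twist has no `H¹`. -/
theorem exists_twist_d_surjective (D : Datum G B) :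
    ∃ n : ℕ, Function.Surjective (D.twist n).d := by
  classical
  obtain ⟨r, c, hc⟩ := Module.Finite.exists_fin (R := B) (M := D.H1)
  choose z hz using fun i ↦ Submodule.mkQ_surjective _ (c i)
  choose m hm using fun i ↦ D.exists_mem_range_twist (z i)
  refine ⟨Finset.univ.sup m, fun (w : D.P01) ↦ ?_⟩
  let n := Finset.univ.sup m
  have h1 : LinearMap.range D.d ≤ LinearMap.range (D.twist n).d := by
    rintro _ ⟨⟨p, q⟩, rfl⟩
    refine ⟨(p, G.Y1 B ^ n • q), ?_⟩
    change D.r0 p - (↑(G.xUnit B ^ (n : ℤ)) : G.R01 B) • D.r1 (G.Y1 B ^ n • q) = D.r0 p - D.r1 q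
    rw [D.r1_smul, map_pow, zpow_natCast, ← mul_smul, Units.val_pow_eq_pow_val]
    change _ - ((G.xUnit B : G.R01 B) ^ n * (↑(G.xUnit B)⁻¹ : G.R01 B) ^ n) • D.r1 q = _
    rw [← mul_pow, Units.mul_inv, one_pow, one_smul]
  have hw : Submodule.mkQ (LinearMap.range D.d) w ∈ Submodule.span B (Set.range c) :=
    hc ▸ Submodule.mem_top
  obtain ⟨a, ha⟩ := (Submodule.mem_span_range_iff_exists_fun B).mp hw
  have : w - ∑ i, a i • z i ∈ LinearMap.range D.d := by
    rw [← Submodule.Quotient.mk_eq_zero, ← Submodule.mkQ_apply, map_sub, map_sum, ← ha]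
    exact sub_eq_zero.mpr (Finset.sum_congr rfl fun i _ ↦ by rw [map_smul, hz])
  change w ∈ LinearMap.range (D.twist n).d
  have e : w = (w - ∑ i, a i • z i) + ∑ i, a i • z i := by abel
  rw [e]
  exact Submodule.add_mem _ (h1 this) (Submodule.sum_mem _ fun i _ ↦
    Submodule.smul_mem _ _ (hm i n (Finset.le_sup (Finset.mem_univ i))))

end Datum

end

end Fermat.PIC
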