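import Fermat.Agent.PIC.Field.Quot
import Fermat.Agent.PIC.Field.Twist

/-!
# The degree of an effective divisor over a field

And the Euler characteristic of a twist down by a divisor.
-/

set_option autoImplicit false
set_option linter.unusedSectionVars false

universe u

namespace Fermat.PIC

noncomputable section

/-- Invertible ideals of a domain are nonzero. -/
lemma ne_bot_of_invertible {R : Type u} [CommRing R] [IsDomain R] (I : Ideal R)
    [Module.Invertible R I] : I ≠ ⊥ := by
  intro h
  subst h
  exact one_ne_zero (α := R) (FaithfulSMul.eq_of_smul_eq_smul (α := (⊥ : Ideal R))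
    fun z ↦ Subsingleton.elim _ _)

/-- The span of the restriction of a section to the overlap. -/
lemma span_map_singleton_eq {R S P Q : Type*} [CommRing R] [CommRing S] [AddCommGroup P]
    [AddCommGroup Q] [Module R P] [Module S Q] {ρ : R →+* S} {x : R} {u : Sˣ}
    (hρ : IsChartMap ρ x u) (r : P →+ Q) (hr : ∀ (a : R) p, r (a • p) = ρ a • r p)
    (hsurj : ∀ z, ∃ (n : ℕ) (p : P), r p = ((u : S) ^ n) • z) {I : Ideal R} {p : P}
    (h : Submodule.span R {p} = smulTop I P) :
    Submodule.span S {r p} = smulTop (I.map ρ) Q := by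
  refine le_antisymm (Submodule.span_le.mpr (Set.singleton_subset_iff.mpr
    (map_mem_smulTop ρ r hr le_rfl (h ▸ Submodule.mem_span_singleton_self _)))) fun z hz ↦ ?_
  obtain ⟨n, q, hq, hqz⟩ := exists_pow_smul_mem_smulTop hρ r hr hsurj hz
  obtain ⟨t, rfl⟩ := Submodule.mem_span_singleton.mp (h.ge hq)
  rw [hr] at hqz
  refine Submodule.mem_span_singleton.mpr ⟨(↑(u ^ n)⁻¹ : S) * ρ t, ?_⟩
  rw [mul_smul, hqz, ← mul_smul, ← Units.val_pow_eq_pow_val, Units.inv_mul, one_smul]

/-- The quotient by a contracted ideal has the dimension of the quotient by the ideal if it maps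
onto it. -/
lemma finrank_quot_eq_of_comap {K R S : Type u} [Field K] [CommRing R] [CommRing S] [Algebra K R]
    [Algebra K S] (ρ : R →ₐ[K] S) {I : Ideal R} {J : Ideal S} (h : I = J.comap ρ)
    (hs : ∀ z : S ⧸ J.restrictScalars K, ∃ w : R ⧸ I.restrictScalars K,
      Submodule.mapQ (I.restrictScalars K) (J.restrictScalars K) ρ.toLinearMap
        (fun _ ha ↦ h.le ha) w = z) :
    Module.finrank K (R ⧸ I) = Module.finrank K (S ⧸ J) := by
  let f := Submodule.mapQ (I.restrictScalars K) (J.restrictScalars K) ρ.toLinearMap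
    fun _ ha ↦ h.le ha
  have hinj : Function.Injective f := by
    rw [injective_iff_map_eq_zero]
    intro z hz
    obtain ⟨z, rfl⟩ := Submodule.mkQ_surjective _ z
    refine (Submodule.Quotient.mk_eq_zero (I.restrictScalars K)).mpr (h.ge ?_)
    exact (Submodule.Quotient.mk_eq_zero (J.restrictScalars K)).mp hz
  rw [← (Submodule.Quotient.restrictScalarsEquiv K I).finrank_eq,
    ← (Submodule.Quotient.restrictScalarsEquiv K J).finrank_eq]
  exact (LinearEquiv.ofBijective f ⟨hinj, hs⟩).finrank_eq

variable {k : Type u} [Field k] [IsAlgClosed k] {G : CurveCharts k} {K : Type u} [Field K]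
  [Algebra k K]

namespace CurveCharts

/-- A nonzero ideal of the first chart has finite codimension. -/
lemma finite_quot_R0 {I : Ideal (G.R0 K)} (hI : I ≠ ⊥) : Module.Finite K (G.R0 K ⧸ I) := by
  obtain ⟨a, ha, ha0⟩ := Submodule.exists_mem_ne_zero_of_ne_bot hI
  refine finite_of_killed G.finite0 ha0 fun p ↦ ?_
  obtain ⟨p, rfl⟩ := Submodule.mkQ_surjective _ p
  exact (Submodule.Quotient.mk_eq_zero I).mpr (I.mul_mem_right p ha)

/-- A nonzero ideal of the second chart has finite codimension. -/
lemma finite_quot_R1 {I : Ideal (G.R1 K)} (hI : I ≠ ⊥) : Module.Finite K (G.R1 K ⧸ I) := by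
  obtain ⟨a, ha, ha0⟩ := Submodule.exists_mem_ne_zero_of_ne_bot hI
  refine finite_of_killed G.finite1 ha0 fun p ↦ ?_
  obtain ⟨p, rfl⟩ := Submodule.mkQ_surjective _ p
  exact (Submodule.Quotient.mk_eq_zero I).mpr (I.mul_mem_right p ha)

end CurveCharts

namespace Datum

variable (D : Datum G K)

/-- A datum over a field is nonzero on the overlap. -/
lemma nontrivial_P01 : Nontrivial D.P01 := by
  by_contra h
  rw [not_nontrivial_iff_subsingleton] at h
  exact one_ne_zero (α := G.R01 K) (FaithfulSMul.eq_of_smul_eq_smul (α := D.P01)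
    fun z ↦ Subsingleton.elim _ _)

/-- A map injective on the overlap is nonzero. -/
lemma Hom.ne_zero_of_injective {D D' : Datum G K} (φ : Hom D D')
    (h : Function.Injective φ.f01) : φ.f01 ≠ 0 := by
  have := D.nontrivial_P01
  obtain ⟨z, hz⟩ := exists_ne (0 : D.P01)
  exact fun h0 ↦ hz (h (by rw [h0, LinearMap.zero_apply, LinearMap.zero_apply]))

/-- Isomorphic data have the same Euler characteristic. -/
theorem Equiv.χ_eq {D D' : Datum G K} (e : Equiv D D') : D.χ = D'.χ :=
  le_antisymm (e.toHom.χ_le (e.toHom.ne_zero_of_injective e.e01.injective))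
    (e.symm.toHom.χ_le (e.symm.toHom.ne_zero_of_injective e.symm.e01.injective))

/-- Isomorphic data have the same degree. -/
theorem Equiv.degree_eq {D D' : Datum G K} (e : Equiv D D') : D.degree = D'.degree := by
  rw [degree, degree, e.χ_eq]

/-- The inclusion of a twist down by a divisor is nonzero. -/
lemma subIncl_f01_ne_zero (E : Div G K) : (D.subIncl E).f01 ≠ 0 :=
  Hom.ne_zero_of_injective _ fun _ _ e ↦ Subtype.ext e

end Datum

namespace Div

variable (E : Div G K)

/-- A divisor is finite on the first chart. -/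
instance finite_quot0 : Module.Finite K (G.R0 K ⧸ E.I0) :=
  CurveCharts.finite_quot_R0 (ne_bot_of_invertible E.I0)

/-- A divisor is finite on the second chart. -/
instance finite_quot1 : Module.Finite K (G.R1 K ⧸ E.I1) :=
  CurveCharts.finite_quot_R1 (ne_bot_of_invertible E.I1)

/-- The divisor on the first chart surjects onto its part on the overlap. -/
lemma surjective_quot0_quot01 :
    Function.Surjective (Submodule.mapQ (E.I0.restrictScalars K) (E.I01.restrictScalars K)
      (G.ρ0 K).toLinearMap fun _ ↦ Ideal.mem_map_of_mem _) := by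
  intro z
  obtain ⟨z, rfl⟩ := Submodule.mkQ_surjective _ z
  obtain ⟨v, hv⟩ := ((Datum.trivial G K).subIncl E).surjective_cok0
    ((Datum.trivial G K).subIncl_f01_ne_zero E) (Submodule.Quotient.mk z)
  obtain ⟨v, rfl⟩ := Submodule.mkQ_surjective _ v
  refine ⟨Submodule.Quotient.mk v, ?_⟩
  rw [Submodule.mapQ_apply, Submodule.mkQ_apply, Submodule.Quotient.eq]
  obtain ⟨w, hw⟩ := (Submodule.Quotient.eq _).mp hv
  have h1 := w.2
  have h2 : (smulTop E.I01 (G.R01 K) : Submodule (G.R01 K) (G.R01 K)) = E.I01 := by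
    rw [smulTop, Ideal.smul_eq_mul, Ideal.mul_top]
  exact hw ▸ h2.le h1

/-- The divisor on the second chart surjects onto its part on the overlap. -/
lemma surjective_quot1_quot01 :
    Function.Surjective (Submodule.mapQ (E.I1.restrictScalars K) (E.I01.restrictScalars K)
      (G.ρ1 K).toLinearMap fun _ ha ↦ E.I01_eq.ge (Ideal.mem_map_of_mem _ ha)) := by
  intro z
  obtain ⟨z, rfl⟩ := Submodule.mkQ_surjective _ z
  obtain ⟨v, hv⟩ := ((Datum.trivial G K).subIncl E).surjective_cok1
    ((Datum.trivial G K).subIncl_f01_ne_zero E) (Submodule.Quotient.mk z)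
  obtain ⟨v, rfl⟩ := Submodule.mkQ_surjective _ v
  refine ⟨Submodule.Quotient.mk v, ?_⟩
  rw [Submodule.mapQ_apply, Submodule.mkQ_apply, Submodule.Quotient.eq]
  obtain ⟨w, hw⟩ := (Submodule.Quotient.eq _).mp hv
  have h1 := w.2
  have h2 : (smulTop E.I01 (G.R01 K) : Submodule (G.R01 K) (G.R01 K)) = E.I01 := by
    rw [smulTop, Ideal.smul_eq_mul, Ideal.mul_top]
  exact hw ▸ h2.le h1

/-- A divisor is finite on the overlap. -/
instance finite_quot01 : Module.Finite K (G.R01 K ⧸ E.I01) :=
  have : Module.Finite K (G.R0 K ⧸ E.I0.restrictScalars K) :=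
    Module.Finite.equiv (Submodule.Quotient.restrictScalarsEquiv K E.I0).symm
  have : Module.Finite K (G.R01 K ⧸ E.I01.restrictScalars K) :=
    Module.Finite.of_surjective _ E.surjective_quot0_quot01
  Module.Finite.equiv (Submodule.Quotient.restrictScalarsEquiv K E.I01)

/-- The degree of a divisor. -/
def deg : ℤ :=
  (Module.finrank K (G.R0 K ⧸ E.I0) : ℤ) + Module.finrank K (G.R1 K ⧸ E.I1) -
    Module.finrank K (G.R01 K ⧸ E.I01)

end Div

namespace Datum

variable (D : Datum G K)

/-- **Twisting down by a divisor lowers the Euler characteristic by its degree.** -/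
theorem χ_sub (E : Div G K) : (D.sub E).χ = D.χ - E.deg := by
  have a0 := finrank_quotient_range (K := K) E.I0 (f := (D.subIncl E).f0)
    (Submodule.range_subtype _)
  have a1 := finrank_quotient_range (K := K) E.I1 (f := (D.subIncl E).f1)
    (Submodule.range_subtype _)
  have a01 := finrank_quotient_range (K := K) E.I01 (f := (D.subIncl E).f01)
    (Submodule.range_subtype _)
  have := (D.subIncl E).χ_eq (D.subIncl_f01_ne_zero E)
  rw [a0, a1, a01] at this
  rw [Div.deg]
  omega

/-- Twisting down by a divisor lowers the degree by its degree. -/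
theorem degree_sub (E : Div G K) : (D.sub E).degree = D.degree - E.deg := by
  rw [degree, degree, χ_sub]; ring

end Datum

namespace Div

variable (E F : Div G K)

/-- Degrees add. -/
theorem deg_mul : (E * F).deg = E.deg + F.deg := by
  have h := ((Datum.trivial G K).subSub E F).χ_eq
  rw [Datum.χ_sub, Datum.χ_sub, Datum.χ_sub] at h
  omega

/-- The empty divisor has degree zero. -/
theorem deg_one : (1 : Div G K).deg = 0 := by
  have h := (Datum.trivial G K).subOne.χ_eq
  rw [Datum.χ_sub] at h
  omega

/-- The degree of a sum of divisors is the sum of the degrees. -/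
theorem deg_prod {ι : Type*} (s : Finset ι) (f : ι → Div G K) :
    (∏ i ∈ s, f i).deg = ∑ i ∈ s, (f i).deg := by
  classical
  induction s using Finset.induction_on with
  | empty => rw [Finset.prod_empty, Finset.sum_empty, deg_one]
  | insert a s ha ih => rw [Finset.prod_insert ha, Finset.sum_insert ha, deg_mul, ih]

/-- A divisor avoiding the poles is cut out on `U1` by its restriction to the overlap. -/
theorem I1_eq_comap (h : E.I1 ⊔ Ideal.span {G.Y1 K} = ⊤) : E.I1 = E.I01.comap (G.ρ1 K) := by
  refine le_antisymm (fun a ha ↦ ?_) fun a ha ↦ ?_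
  · rw [Ideal.mem_comap, E.I01_eq]
    exact Ideal.mem_map_of_mem _ ha
  · obtain ⟨q, hq, w, hw, hqw⟩ := Submodule.mem_sup.mp
      (h ▸ Submodule.mem_top : (1 : G.R1 K) ∈ E.I1 ⊔ Ideal.span {G.Y1 K})
    obtain ⟨c, rfl⟩ := Ideal.mem_span_singleton'.mp hw
    rw [Ideal.mem_comap, E.I01_eq] at ha
    obtain ⟨n, r, hr, hra⟩ := (G.isChartMap1 K).exists_pow_mul_mem ha
    have hya : G.Y1 K ^ n • a ∈ E.I1 := by
      rw [smul_eq_mul, show G.Y1 K ^ n * a = r from G.ρ1_injective K (by
        rw [_root_.map_mul, map_pow]; exact hra.symm)]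
      exact hr
    have hco : IsCoprime (G.Y1 K) q := ⟨c, 1, by rw [one_mul, add_comm]; exact hqw⟩
    exact mem_of_isCoprime_smul E.I1 (hco.pow_left (m := n)) hya
      (E.I1.mul_mem_right a hq)

/-- Divisors avoiding the poles are determined on `U0`. -/
theorem ext_of_coprime {E F : Div G K} (h : E.I1 ⊔ Ideal.span {G.Y1 K} = ⊤)
    (h' : F.I1 ⊔ Ideal.span {G.Y1 K} = ⊤) (h0 : E.I0 = F.I0) : E = F :=
  ext' h0 (by rw [E.I1_eq_comap h, F.I1_eq_comap h', I01, I01, h0])

/-- The degree of a divisor cut out from `U0`. -/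
theorem deg_of_comap (h : E.I1 = E.I01.comap (G.ρ1 K)) :
    E.deg = Module.finrank K (G.R0 K ⧸ E.I0) := by
  rw [deg, finrank_quot_eq_of_comap (G.ρ1 K) h E.surjective_quot1_quot01]; ring

end Div

end

end Fermat.PIC
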