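import Mathlib

/-!
# An algebra with invertible diagonal ideal gives Dedekind domains over fields

If the diagonal ideal of `A` over `k` is projective and finitely generated then, over any field
`K/k`, every module over `R = K ⊗ A` has a free cover with projective kernel, so every ideal of `R`
is projective; if `R` is moreover a domain then every nonzero ideal is invertible.
-/

set_option autoImplicit false

universe u

open scoped TensorProduct nonZeroDivisors

namespace Fermat.PIC

noncomputable section

section Diagonal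

variable {K : Type u} [CommRing K] {R : Type u} [CommRing R] [Algebra K R]

/-- The diagonal element. -/
def diagElt (r : R) : R ⊗[K] R := r ⊗ₜ 1 - 1 ⊗ₜ r

/-- The product rule for diagonal elements. -/
lemma diagElt_mul (r s : R) :
    diagElt (K := K) (r * s) =
      (r ⊗ₜ[K] (1 : R)) * diagElt s + ((1 : R) ⊗ₜ[K] s) * diagElt r := by
  simp only [diagElt, mul_sub, Algebra.TensorProduct.tmul_mul_tmul, one_mul, mul_one]
  rw [mul_comm s r]
  abel

/-- The diagonal ideal splits: finitely many generators with coefficient functions obeying the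
product rule. -/
structure DiagSplit (K R : Type u) [CommRing K] [CommRing R] [Algebra K R] where
  /-- The number of generators of the diagonal ideal. -/
  n : ℕ
  /-- The generators of the diagonal ideal. -/
  g : Fin n → R ⊗[K] R
  /-- The generators lie in the diagonal ideal. -/
  g_mem : ∀ i, g i ∈ KaehlerDifferential.ideal K R
  /-- The linear functions giving the coefficients of a diagonal element at the generators. -/
  c : Fin n → R →ₗ[K] R ⊗[K] R
  /-- The coefficients obey the product rule. -/
  c_mul : ∀ i r s, c i (r * s) = (r ⊗ₜ[K] (1 : R)) * c i s + ((1 : R) ⊗ₜ[K] s) * c i r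
  /-- Every diagonal element is the combination of the generators with these coefficients. -/
  sum_c : ∀ r, ∑ i, g i * c i r = diagElt r

variable (K) (M : Type u) [AddCommGroup M] [Module K M] [Module R M] [IsScalarTower K R M]

/-- The two-sided action on the extended module. -/
def biAct : R ⊗[K] R →ₐ[R] Module.End R (R ⊗[K] M) :=
  Algebra.TensorProduct.lift (Algebra.ofId R _)
    ((Module.End.baseChangeHom K R M).comp (Algebra.lsmul K K M))
    fun r _ ↦ Algebra.commutes r _

/-- The cover of `M` by the extended module. -/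
def coverMap : R ⊗[K] M →ₗ[R] M := (LinearMap.id : M →ₗ[K] M).liftBaseChange R

/-- The two-sided action on pure tensors. -/
lemma biAct_tmul (r s r' : R) (m : M) :
    biAct K M (r ⊗ₜ[K] s) (r' ⊗ₜ[K] m) = (r * r') ⊗ₜ[K] (s • m) := by
  rw [biAct, Algebra.TensorProduct.lift_tmul]
  change r • ((Algebra.lsmul K K M s).baseChange R (r' ⊗ₜ[K] m)) = _
  rw [LinearMap.baseChange_tmul, TensorProduct.smul_tmul']
  rfl

/-- The cover on pure tensors. -/
lemma coverMap_tmul (r : R) (m : M) : coverMap K M (r ⊗ₜ[K] m) = r • m := by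
  simp [coverMap]

/-- The cover turns the two-sided action into the product. -/
lemma coverMap_biAct (t : R ⊗[K] R) (w : R ⊗[K] M) :
    coverMap K M (biAct K M t w) = Algebra.TensorProduct.lmul' K t • coverMap K M w := by
  induction t using TensorProduct.induction_on with
  | zero => simp
  | add t t' ht ht' => simp [map_add, add_smul, ht, ht']
  | tmul r s =>
    induction w using TensorProduct.induction_on with
    | zero => simp
    | add w w' hw hw' => simp [map_add, smul_add, hw, hw']
    | tmul r' m =>
      rw [biAct_tmul, coverMap_tmul, coverMap_tmul, Algebra.TensorProduct.lmul'_apply_tmul,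
        ← mul_smul, ← mul_smul]
      ring_nf

variable {K}

/-- **The kernel of the cover is projective.** -/
theorem projective_ker_coverMap (S : DiagSplit K R) [Module.Free K M] :
    Module.Projective R (LinearMap.ker (coverMap K M) : Submodule R (R ⊗[K] M)) := by
  -- `ψ i` applies the `i`-th coordinate of the diagonal splitting
  let ψ : Fin S.n → (R ⊗[K] M →ₗ[K] R ⊗[K] M) := fun i ↦ TensorProduct.lift
    (LinearMap.mk₂ K (fun r m ↦ biAct K M (S.c i r) ((1 : R) ⊗ₜ[K] m))
      (fun r r' m ↦ by simp [map_add]) (fun a r m ↦ by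
        rw [map_smul, show biAct K M (a • S.c i r) = a • biAct K M (S.c i r) from
          ((biAct K M).restrictScalars K).toLinearMap.map_smul a _, LinearMap.smul_apply])
      (fun r m m' ↦ by simp [TensorProduct.tmul_add]) fun a r m ↦ by
        rw [TensorProduct.tmul_smul, LinearMap.map_smul_of_tower])
  have hψ : ∀ i r (m : M), ψ i (r ⊗ₜ[K] m) = biAct K M (S.c i r) ((1 : R) ⊗ₜ[K] m) :=
    fun _ _ _ ↦ rfl
  have hmul : ∀ i r (w : R ⊗[K] M),
      ψ i (r • w) = r • ψ i w + biAct K M (S.c i r) ((1 : R) ⊗ₜ[K] coverMap K M w) := by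
    intro i r w
    induction w using TensorProduct.induction_on with
    | zero => simp
    | add w w' hw hw' =>
      simp only [smul_add, map_add, TensorProduct.tmul_add, hw, hw']
      abel
    | tmul r' m =>
      rw [TensorProduct.smul_tmul', smul_eq_mul, hψ, hψ, S.c_mul, map_add, map_mul, map_mul,
        LinearMap.add_apply, coverMap_tmul]
      congr 1
      · rw [Module.End.mul_apply, biAct, Algebra.TensorProduct.lift_tmul, map_one, mul_one,
          Algebra.ofId_apply, Module.algebraMap_end_apply]
      · rw [← map_mul, mul_comm, map_mul, Module.End.mul_apply, biAct_tmul, one_mul]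
  -- on the kernel it is `R`-linear; `Ψ` sums against the generators `g i`
  let Φ : (LinearMap.ker (coverMap K M) : Submodule R (R ⊗[K] M)) →ₗ[R] Fin S.n → R ⊗[K] M :=
    { toFun := fun w i ↦ ψ i w.1
      map_add' := fun w w' ↦ by ext i; simp
      map_smul' := fun r w ↦ by
        ext i
        simp only [SetLike.val_smul, hmul, LinearMap.mem_ker.mp w.2, TensorProduct.tmul_zero,
          map_zero, add_zero, RingHom.id_apply, Pi.smul_apply] }
  let Ψ : (Fin S.n → R ⊗[K] M) →ₗ[R] (LinearMap.ker (coverMap K M) : Submodule R (R ⊗[K] M)) :=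
    LinearMap.codRestrict _ (∑ i, (biAct K M (S.g i)).comp (LinearMap.proj i)) fun v ↦ by
      rw [LinearMap.mem_ker, LinearMap.coe_sum, Finset.sum_apply, map_sum]
      refine Finset.sum_eq_zero fun i _ ↦ ?_
      simp only [LinearMap.coe_comp, Function.comp_apply, coverMap_biAct]
      rw [show Algebra.TensorProduct.lmul' K (S.g i) = 0 from S.g_mem i, zero_smul]
  have hsum : ∀ w : R ⊗[K] M,
      ∑ i, biAct K M (S.g i) (ψ i w) = w - (1 : R) ⊗ₜ[K] coverMap K M w := by
    intro w
    induction w using TensorProduct.induction_on with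
    | zero => simp
    | add w w' hw hw' =>
      simp only [map_add, Finset.sum_add_distrib, hw, hw', TensorProduct.tmul_add]
      abel
    | tmul r m =>
      simp only [hψ, ← Module.End.mul_apply, ← map_mul]
      rw [← LinearMap.sum_apply, ← map_sum, S.sum_c, diagElt, map_sub, LinearMap.sub_apply,
        biAct_tmul, biAct_tmul, one_smul, mul_one, one_mul, coverMap_tmul]
  -- so the kernel is a direct summand of a projective module
  refine Module.Projective.of_split Φ Ψ (LinearMap.ext fun w ↦ Subtype.ext ?_)
  simp only [LinearMap.coe_comp, Function.comp_apply, Ψ, LinearMap.codRestrict_apply,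
    LinearMap.coe_sum, Finset.sum_apply, LinearMap.coe_proj, Function.eval, LinearMap.id_apply]
  refine (hsum w.1).trans ?_
  rw [LinearMap.mem_ker.mp w.2, TensorProduct.tmul_zero, sub_zero]

end Diagonal

/-- Every ideal of a ring with split diagonal over a field is projective. -/
theorem projective_ideal {K : Type u} [Field K] {R : Type u} [CommRing R] [Algebra K R]
    (S : DiagSplit K R) (P : Ideal R) : Module.Projective R P := by
  let μ := coverMap (R := R) K (R ⧸ P)
  have hμ : Function.Surjective μ := fun m ↦ ⟨(1 : R) ⊗ₜ m, by rw [coverMap_tmul, one_smul]⟩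
  obtain ⟨s, hs⟩ := Module.projective_lifting_property (Submodule.mkQ P) μ
    (Submodule.mkQ_surjective P)
  obtain ⟨t, ht⟩ := Module.projective_lifting_property μ (Submodule.mkQ P) hμ
  have hs' : ∀ y, Submodule.mkQ P (s y) = μ y := LinearMap.congr_fun hs
  have ht' : ∀ r, μ (t r) = Submodule.mkQ P r := LinearMap.congr_fun ht
  have := projective_ker_coverMap (R ⧸ P) S
  let i : P →ₗ[R] R × LinearMap.ker μ := P.subtype.prod
    (LinearMap.codRestrict _ (-(t.comp P.subtype)) fun p ↦ by
      rw [LinearMap.mem_ker, LinearMap.neg_apply, map_neg, LinearMap.comp_apply, ht',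
        Submodule.mkQ_apply, (Submodule.Quotient.mk_eq_zero P).mpr (by exact p.2), neg_zero])
  let q : R × LinearMap.ker μ →ₗ[R] P := LinearMap.codRestrict P
    (LinearMap.fst R R _ - s.comp ((LinearMap.ker μ).subtype.comp (LinearMap.snd R R _) +
      t.comp (LinearMap.fst R R _))) fun z ↦ by
    rw [← Submodule.Quotient.mk_eq_zero P, ← Submodule.mkQ_apply, LinearMap.sub_apply, map_sub,
      LinearMap.comp_apply, hs', LinearMap.add_apply, map_add, LinearMap.comp_apply,
      LinearMap.comp_apply, Submodule.subtype_apply, show μ ((LinearMap.snd R R _ z).1) = 0 from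
        LinearMap.mem_ker.mp (LinearMap.snd R R _ z).2, zero_add, ht',
      LinearMap.fst_apply, sub_self]
  refine Module.Projective.of_split i q (LinearMap.ext fun p ↦ Subtype.ext ?_)
  simp [i, q]

/-- A domain with all ideals projective and finitely generated is a Dedekind domain. -/
theorem isDedekindDomain_of_projective {R : Type u} [CommRing R] [IsDomain R] [IsNoetherianRing R]
    (h : ∀ P : Ideal R, Module.Projective R P) : IsDedekindDomain R := by
  rw [isDedekindDomain_iff_mul_inv_cancel (K := FractionRing R)]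
  intro I hI
  obtain ⟨a, J, ha, hJ⟩ := FractionalIdeal.exists_eq_spanSingleton_mul (K := FractionRing R) I
  set F := FractionRing R
  have hJ0 : J ≠ ⊥ := fun h0 ↦ hI (by rw [hJ, h0]; simp)
  suffices hinv : (J : FractionalIdeal R⁰ F) * (J : FractionalIdeal R⁰ F)⁻¹ = 1 by
    rw [hJ]
    refine FractionalIdeal.mul_inv_cancel_iff_isUnit F |>.mpr (IsUnit.mul ?_
      ((FractionalIdeal.mul_inv_cancel_iff_isUnit F).mp hinv))
    refine isUnit_iff_exists_inv.mpr ⟨FractionalIdeal.spanSingleton R⁰ (algebraMap R F a), ?_⟩
    rw [FractionalIdeal.spanSingleton_mul_spanSingleton, inv_mul_cancel₀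
      (IsFractionRing.to_map_ne_zero_of_mem_nonZeroDivisors (mem_nonZeroDivisors_of_ne_zero ha)),
      FractionalIdeal.spanSingleton_one]
  have := h J
  obtain ⟨n, π, hπ⟩ := Module.Finite.exists_fin' R J
  -- a dual basis `(x i, φ i)` of `J`
  obtain ⟨φ, hφ⟩ := Module.projective_lifting_property π LinearMap.id hπ
  obtain ⟨y, hy, hy0⟩ := Submodule.exists_mem_ne_zero_of_ne_bot hJ0
  set x : Fin n → J := fun i ↦ π (Pi.single i 1)
  have hsum : ∀ z : J, ∑ i, φ z i * (x i : R) = (z : R) := fun z ↦ by
    have h1 := LinearMap.congr_fun hφ z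
    rw [LinearMap.comp_apply, LinearMap.id_apply] at h1
    conv_rhs => rw [← h1, pi_eq_sum_univ' (φ z), map_sum]
    simp [x, AddSubmonoidClass.coe_finsetSum]
  -- `φ i` is multiplication by `c i ∈ J⁻¹`, and `∑ x i * c i = 1`
  set c : Fin n → F := fun i ↦ algebraMap R F (φ ⟨y, hy⟩ i) / algebraMap R F y
  have hyF : algebraMap R F y ≠ 0 := by simpa using hy0
  have hc : ∀ i (z : J), c i * algebraMap R F (z : R) = algebraMap R F (φ z i) := fun i z ↦ by
    have h1 : φ ((z : R) • ⟨y, hy⟩) i = φ (y • z) i := by
      rw [show (z : R) • (⟨y, hy⟩ : J) = y • z from Subtype.ext (mul_comm _ _)]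
    simp only [map_smul, Pi.smul_apply, smul_eq_mul] at h1
    simp only [c]
    rw [div_mul_eq_mul_div, div_eq_iff hyF, ← map_mul, ← map_mul, mul_comm _ (z : R), h1,
      mul_comm]
  have hJ0' : (J : FractionalIdeal R⁰ F) ≠ 0 := FractionalIdeal.coeIdeal_ne_zero.mpr hJ0
  refine le_antisymm FractionalIdeal.mul_one_div_le_one ?_
  rw [FractionalIdeal.one_le, ← map_one (algebraMap R F)]
  have hmem : ∀ i, c i ∈ (J : FractionalIdeal R⁰ F)⁻¹ := fun i ↦ by
    rw [FractionalIdeal.mem_inv_iff hJ0']
    intro z hz
    obtain ⟨z, hzJ, rfl⟩ := (FractionalIdeal.mem_coeIdeal _).mp hz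
    rw [hc i ⟨z, hzJ⟩]
    exact FractionalIdeal.mem_one_iff _ |>.mpr ⟨_, rfl⟩
  have e : (1 : F) = ∑ i, algebraMap R F (x i : R) * c i := by
    apply mul_right_cancel₀ hyF
    rw [one_mul, Finset.sum_mul]
    refine (congrArg (algebraMap R F) (hsum ⟨y, hy⟩).symm).trans ?_
    rw [map_sum]
    refine Finset.sum_congr rfl fun i _ ↦ ?_
    rw [mul_assoc, hc i ⟨y, hy⟩, map_mul, mul_comm]
  rw [map_one, e]
  exact Submodule.sum_mem _ fun i _ ↦ FractionalIdeal.mul_mem_mul
    ((FractionalIdeal.mem_coeIdeal _).mpr ⟨_, (x i).2, rfl⟩) (hmem i)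

section BaseChange

variable {k : Type u} [Field k] {A : Type u} [CommRing A] [Algebra k A]
  (K : Type u) [CommRing K] [Algebra k K]

/-- The diagonal of a base change splits. -/
theorem nonempty_diagSplit [Module.Invertible (A ⊗[k] A) (KaehlerDifferential.ideal k A)] :
    Nonempty (DiagSplit K (K ⊗[k] A)) := by
  let R := K ⊗[k] A
  let ι : A →ₐ[k] R := Algebra.TensorProduct.includeRight
  let ν : A ⊗[k] A →ₐ[k] R ⊗[K] R := Algebra.TensorProduct.lift
    ((Algebra.TensorProduct.includeLeft : R →ₐ[k] R ⊗[K] R).comp ι)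
    (((Algebra.TensorProduct.includeRight : R →ₐ[K] R ⊗[K] R).restrictScalars k).comp ι)
    fun _ _ ↦ Commute.all _ _
  have hν : ∀ a b : A, ν (a ⊗ₜ b) = ι a ⊗ₜ[K] ι b := fun a b ↦ by
    simp [ν, Algebra.TensorProduct.tmul_mul_tmul]
  let I := KaehlerDifferential.ideal k A
  -- a dual basis of the projective ideal of the diagonal of `A`
  obtain ⟨n, π, hπ⟩ := Module.Finite.exists_fin' (A ⊗[k] A) I
  obtain ⟨φ, hφ⟩ := Module.projective_lifting_property π LinearMap.id hπ
  let δ : A →ₗ[k] I := LinearMap.codRestrict (I.restrictScalars k)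
    ((Algebra.TensorProduct.includeLeft : A →ₐ[k] A ⊗[k] A).toLinearMap -
      (Algebra.TensorProduct.includeRight : A →ₐ[k] A ⊗[k] A).toLinearMap) fun a ↦ by
      simp [I, RingHom.mem_ker]
  have hδ : ∀ a, (δ a : A ⊗[k] A) = diagElt (K := k) a := fun _ ↦ rfl
  have hδmul : ∀ a b : A, δ (a * b) = (a ⊗ₜ[k] (1 : A)) • δ b + ((1 : A) ⊗ₜ[k] b) • δ a :=
    fun a b ↦ Subtype.ext (diagElt_mul a b)
  -- pulled back along `a ↦ a ⊗ 1 - 1 ⊗ a` and base changed to `K`, it splits
  let f : Fin n → A →ₗ[k] R ⊗[K] R := fun i ↦
    ν.toLinearMap.comp (((LinearMap.proj i).comp φ).restrictScalars k |>.comp δ)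
  let x : Fin n → A ⊗[k] A := fun i ↦ (π (Pi.single i 1) : A ⊗[k] A)
  have hfx : ∀ a, ∑ i, ν (x i) * f i a = ν (diagElt (K := k) a) := fun a ↦ by
    have h1 := LinearMap.congr_fun hφ (δ a)
    rw [LinearMap.comp_apply, LinearMap.id_apply, pi_eq_sum_univ' (φ (δ a)), map_sum] at h1
    rw [← hδ, ← congrArg Subtype.val h1, AddSubmonoidClass.coe_finsetSum, map_sum]
    refine Finset.sum_congr rfl fun i _ ↦ ?_
    rw [map_smul, Submodule.coe_smul, smul_eq_mul, map_mul, mul_comm]
    rfl
  have hfmul : ∀ i a b, f i (a * b) =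
      (ι a ⊗ₜ[K] (1 : R)) * f i b + ((1 : R) ⊗ₜ[K] ι b) * f i a := fun i a b ↦ by
    simp only [f, LinearMap.coe_comp, Function.comp_apply, LinearMap.coe_restrictScalars,
      LinearMap.coe_proj, Function.eval, AlgHom.toLinearMap_apply, hδmul, map_add, map_smul,
      Pi.add_apply, Pi.smul_apply, smul_eq_mul, map_mul, hν, map_one]
  refine ⟨⟨n, fun i ↦ ν (x i), fun i ↦ ?_, fun i ↦ (f i).liftBaseChange K, fun i r s ↦ ?_,
    fun r ↦ ?_⟩⟩
  · have hl : ∀ t : A ⊗[k] A, Algebra.TensorProduct.lmul' K (ν t) =
        ι (Algebra.TensorProduct.lmul' k t) := fun t ↦ by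
      induction t using TensorProduct.induction_on with
      | zero => simp
      | add t t' ht ht' => simp [map_add, ht, ht']
      | tmul a b => rw [hν, Algebra.TensorProduct.lmul'_apply_tmul,
          Algebra.TensorProduct.lmul'_apply_tmul, map_mul]
    rw [RingHom.mem_ker, hl, show Algebra.TensorProduct.lmul' k (x i) = 0 from
      (π (Pi.single i 1)).2, map_zero]
  · induction r using TensorProduct.induction_on with
    | zero => simp [TensorProduct.zero_tmul]
    | add r r' hr hr' =>
      simp only [add_mul, map_add, TensorProduct.add_tmul, hr, hr', mul_add]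
      abel
    | tmul c a =>
      induction s using TensorProduct.induction_on with
      | zero => simp [TensorProduct.tmul_zero]
      | add s s' hs hs' =>
        simp only [mul_add, map_add, TensorProduct.tmul_add, hs, hs', add_mul]
        abel
      | tmul d b =>
        have hc : ∀ (c : K) (a : A), (c ⊗ₜ[k] a : R) = c • ι a := fun c a ↦ by
          change (c ⊗ₜ[k] a : K ⊗[k] A) = c • ((1 : K) ⊗ₜ[k] a)
          rw [TensorProduct.smul_tmul', smul_eq_mul, mul_one]
        rw [Algebra.TensorProduct.tmul_mul_tmul, LinearMap.liftBaseChange_tmul,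
          LinearMap.liftBaseChange_tmul, LinearMap.liftBaseChange_tmul, hfmul, hc c a, hc d b,
          ← TensorProduct.smul_tmul', TensorProduct.tmul_smul]
        simp only [smul_add, smul_mul_assoc, mul_smul_comm, smul_smul]
        rw [mul_comm d c]
  · induction r using TensorProduct.induction_on with
    | zero => simp [diagElt]
    | add r r' hr hr' =>
      simp only [map_add, mul_add, Finset.sum_add_distrib, hr, hr', diagElt, TensorProduct.add_tmul,
        TensorProduct.tmul_add]
      abel
    | tmul c a =>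
      simp only [LinearMap.liftBaseChange_tmul, mul_smul_comm, ← Finset.smul_sum, hfx]
      have hc : (c ⊗ₜ[k] a : R) = c • ι a := by
        change (c ⊗ₜ[k] a : K ⊗[k] A) = c • ((1 : K) ⊗ₜ[k] a)
        rw [TensorProduct.smul_tmul', smul_eq_mul, mul_one]
      simp only [diagElt, map_sub, hν, map_one, smul_sub]
      rw [hc, ← TensorProduct.smul_tmul', TensorProduct.tmul_smul]

end BaseChange

end

end Fermat.PIC
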