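import Fermat.Agent.PIC.Field.Section

/-!
# Rational points as divisors

Points of the first chart over a field: degree, products, zeros of finitely many sections.
-/

set_option autoImplicit false
set_option linter.unusedSectionVars false

universe u

open scoped TensorProduct

namespace Fermat.PIC

noncomputable section

variable {k : Type u} [Field k] [IsAlgClosed k] {G : CurveCharts k} {K : Type u} [Field K]
  [Algebra k K]

namespace Div

/-- A point of `U0` is away from the poles. -/
lemma point0_coprime {B : Type u} [CommRing B] [Algebra k B] (σ : G.A0 →ₐ[k] B) :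
    (point0 σ).I1 ⊔ Ideal.span {G.Y1 B} = ⊤ := by
  have : Module.Finite B (G.R0 B ⧸ RingHom.ker (G.ev0 σ)) := finite_quotient_evPt σ
  have : Module.Projective B (G.R0 B ⧸ RingHom.ker (G.ev0 σ)) := projective_quotient_evPt σ
  obtain ⟨q, ⟨a, b, hab⟩, hq⟩ := exists_coprime_mem_ofFinite0 (RingHom.ker (G.ev0 σ))
  rw [Ideal.eq_top_iff_one, ← hab]
  exact add_mem (Submodule.mem_sup_right (Ideal.mem_span_singleton'.mpr ⟨a, rfl⟩))
    (Submodule.mem_sup_left (Ideal.mul_mem_left _ b hq))

/-- Divisors away from the poles are closed under products. -/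
lemma prod_coprime {B : Type u} [CommRing B] [Algebra k B] {ι : Type*} (s : Finset ι)
    (f : ι → Div G B) (h : ∀ i ∈ s, (f i).I1 ⊔ Ideal.span {G.Y1 B} = ⊤) :
    (∏ i ∈ s, f i).I1 ⊔ Ideal.span {G.Y1 B} = ⊤ := by
  classical
  induction s using Finset.induction_on with
  | empty => simp [one_I1]
  | insert a s ha ih =>
    rw [Finset.prod_insert ha, mul_I1,
      Ideal.mul_sup_eq_of_coprime_left (h a (Finset.mem_insert_self a s))]
    exact ih fun i hi ↦ h i (Finset.mem_insert_of_mem hi)

/-- The ideal of a sum of divisors on `U0`. -/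
lemma prod_I0 {B : Type u} [CommRing B] [Algebra k B] {ι : Type*} (s : Finset ι) (f : ι → Div G B) :
    (∏ i ∈ s, f i).I0 = ∏ i ∈ s, (f i).I0 := by
  classical
  induction s using Finset.induction_on with
  | empty => simp [one_I0, Ideal.one_eq_top]
  | insert a s ha ih => rw [Finset.prod_insert ha, Finset.prod_insert ha, mul_I0, ih]

/-- The degree of a subscheme of the first chart is its length. -/
theorem deg_ofFinite0 (I : Ideal (G.R0 K)) [Module.Finite K (G.R0 K ⧸ I)]
    [Module.Projective K (G.R0 K ⧸ I)] :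
    (ofFinite0 I).deg = Module.finrank K (G.R0 K ⧸ I) :=
  (ofFinite0 I).deg_of_comap rfl

/-- A rational point has degree one. -/
theorem deg_point0 (σ : G.A0 →ₐ[k] K) : (point0 σ).deg = 1 := by
  have : Module.finrank K (G.R0 K ⧸ (point0 σ).I0) = 1 :=
    (evPtEquiv σ).finrank_eq.trans (Module.finrank_self K)
  rw [(point0 σ).deg_of_comap rfl, this]; rfl

/-- A sum of rational points has their number as degree. -/
theorem deg_prod_point0 {ι : Type*} [Fintype ι] (σ : ι → (G.A0 →ₐ[k] K)) :
    (∏ i, point0 (σ i)).deg = Fintype.card ι := by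
  simp [deg_prod, deg_point0]

end Div

namespace CurveCharts

/-- The ideal of a rational point is maximal. -/
instance isMaximal_ker_ev0 (σ : G.A0 →ₐ[k] K) : (RingHom.ker (G.ev0 σ)).IsMaximal :=
  RingHom.ker_isMaximal_of_surjective _ (evPt_surjective σ)

/-- The ideal of a rational point is nonzero. -/
lemma ker_ev0_ne_bot (σ : G.A0 →ₐ[k] K) : RingHom.ker (G.ev0 σ) ≠ ⊥ :=
  ne_bot_of_invertible (Div.point0 σ).I0

/-- A rational point is determined by its ideal. -/
lemma ker_ev0_injective :
    Function.Injective fun σ : G.A0 →ₐ[k] K ↦ RingHom.ker (G.ev0 σ) := by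
  intro σ τ h
  ext a
  have h1 : (1 : K) ⊗ₜ[k] a - σ a ⊗ₜ[k] (1 : G.A0) ∈ RingHom.ker (G.ev0 σ) := by
    simp [RingHom.mem_ker, ev0]
  rw [show RingHom.ker (G.ev0 σ) = RingHom.ker (G.ev0 τ) from h] at h1
  simp [RingHom.mem_ker, ev0, sub_eq_zero] at h1
  exact h1.symm

/-- A nonzero function vanishes at finitely many points. -/
theorem finite_setOf_mem_ker_ev0 {a : G.R0 K} (ha : a ≠ 0) :
    {σ : G.A0 →ₐ[k] K | a ∈ RingHom.ker (G.ev0 σ)}.Finite := by
  let v : (G.A0 →ₐ[k] K) → IsDedekindDomain.HeightOneSpectrum (G.R0 K) :=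
    fun σ ↦ ⟨RingHom.ker (G.ev0 σ), (isMaximal_ker_ev0 σ).isPrime, ker_ev0_ne_bot σ⟩
  have hv : Function.Injective v := fun σ τ h ↦
    ker_ev0_injective (congrArg IsDedekindDomain.HeightOneSpectrum.asIdeal h)
  refine ((Ideal.finite_factors (I := Ideal.span {a})
    (mt Ideal.span_singleton_eq_bot.mp ha)).preimage hv.injOn).subset fun σ hσ ↦ ?_
  exact Ideal.dvd_iff_le.mpr ((Ideal.span_singleton_le_iff_mem _).mpr hσ)

variable (G) in
/-- Every value of the coordinate is taken at a point. -/
theorem exists_pt (c : k) : ∃ σ : G.A0 →ₐ[k] k, σ G.x = c := by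
  let := (Polynomial.aeval G.x : Polynomial k →ₐ[k] G.A0).toRingHom.toAlgebra
  have : Module.Finite (Polynomial k) G.A0 := G.finite0
  have : Algebra.IsIntegral (Polynomial k) G.A0 := Algebra.IsIntegral.of_finite _ _
  have : (Ideal.span {Polynomial.X - Polynomial.C c}).IsMaximal :=
    PrincipalIdealRing.isMaximal_of_irreducible (Polynomial.irreducible_X_sub_C c)
  obtain ⟨m, hm, hmc⟩ := Ideal.exists_ideal_over_maximal_of_isIntegral (S := G.A0)
    (Ideal.span {Polynomial.X - Polynomial.C c}) (by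
      rw [(RingHom.injective_iff_ker_eq_bot _).mp
        (show Function.Injective (algebraMap (Polynomial k) G.A0) from G.injective0)]
      exact bot_le)
  obtain ⟨σ, hσ⟩ := exists_point_of_isMaximal (k := k) m
  refine ⟨σ, ?_⟩
  have h1 : Polynomial.X - Polynomial.C c ∈ m.comap (algebraMap (Polynomial k) G.A0) :=
    hmc ▸ Ideal.mem_span_singleton_self _
  rw [Ideal.mem_comap, ← hσ, RingHom.mem_ker] at h1
  change σ (Polynomial.aeval G.x (Polynomial.X - Polynomial.C c)) = 0 at h1
  rw [map_sub, Polynomial.aeval_X, Polynomial.aeval_C, map_sub, AlgHom.commutes,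
    Algebra.algebraMap_self, RingHom.id_apply, sub_eq_zero] at h1
  exact h1

/-- The first chart has infinitely many points over the ground field. -/
instance infinite_pt : Infinite (G.A0 →ₐ[k] k) :=
  Infinite.of_surjective (fun σ ↦ σ G.x) G.exists_pt

/-- Points over the ground field stay distinct over an extension. -/
lemma comp_ofId_injective :
    Function.Injective fun σ : G.A0 →ₐ[k] k ↦ (Algebra.ofId k K).comp σ := fun _ _ h ↦
  AlgHom.ext fun a ↦ (algebraMap k K).injective (AlgHom.congr_fun h a)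

/-- Over an algebraically closed field a maximal ideal of the first chart is a point. -/
theorem exists_ker_ev0_eq [IsAlgClosed K] (m : Ideal (G.R0 K)) [m.IsMaximal] :
    ∃ σ : G.A0 →ₐ[k] K, RingHom.ker (G.ev0 σ) = m := by
  obtain ⟨φ, hφ⟩ := exists_point_of_isMaximal (k := K) m
  refine ⟨(φ.restrictScalars k).comp Algebra.TensorProduct.includeRight, ?_⟩
  rw [← hφ]
  congr 1
  refine Algebra.TensorProduct.ext (AlgHom.ext fun c ↦ ?_) (AlgHom.ext fun a ↦ ?_)
  · simpa [ev0] using (φ.commutes c).symm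
  · simp [ev0]

/-- Over an algebraically closed field a nonzero ideal of the first chart is a product of
points. -/
theorem exists_eq_prod_ker_ev0 [IsAlgClosed K] (I : Ideal (G.R0 K)) (hI : I ≠ ⊥) :
    ∃ (m : ℕ) (σ : Fin m → (G.A0 →ₐ[k] K)), I = ∏ i, RingHom.ker (G.ev0 (σ i)) := by
  induction I using UniqueFactorizationMonoid.induction_on_prime with
  | h₁ => exact absurd rfl hI
  | h₂ I hu =>
    exact ⟨0, Fin.elim0, by rw [Finset.univ_eq_empty, Finset.prod_empty, Ideal.isUnit_iff.mp hu,
      Ideal.one_eq_top]⟩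
  | h₃ I P hI0 hP ih =>
    obtain ⟨m, σ, hσ⟩ := ih hI0
    have : P.IsMaximal := (Ideal.isPrime_of_prime hP).isMaximal hP.ne_zero
    obtain ⟨τ, hτ⟩ := exists_ker_ev0_eq P
    exact ⟨m + 1, Fin.cons τ σ, by rw [Fin.prod_univ_succ, Fin.cons_zero, hτ, hσ]; simp⟩

end CurveCharts

namespace Datum

variable (D : Datum G K)

/-- A nonzero section vanishes at finitely many points. -/
theorem finite_setOf_mem_ker_ev0_smul {s : D.P0} (hs : s ≠ 0) :
    {σ : G.A0 →ₐ[k] K | s ∈ smulTop (RingHom.ker (G.ev0 σ)) D.P0}.Finite := by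
  obtain ⟨J, ⟨e⟩⟩ := Module.Invertible.exists_linearEquiv_ideal (G.R0 K) D.P0
  have ha : (e s : G.R0 K) ≠ 0 := fun h ↦
    hs (e.injective (Subtype.ext (by rw [map_zero]; exact h)))
  refine (CurveCharts.finite_setOf_mem_ker_ev0 ha).subset fun σ hσ ↦ ?_
  refine Submodule.smul_induction_on hσ (fun r hr p _ ↦ ?_) fun p q hp hq ↦ ?_
  · rw [map_smul, Submodule.coe_smul, smul_eq_mul]
    exact Ideal.mul_mem_right _ _ hr
  · change (e (p + q) : G.R0 K) ∈ RingHom.ker (G.ev0 σ)
    rw [map_add, Submodule.coe_add]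
    exact (RingHom.ker (G.ev0 σ)).add_mem hp hq

/-- A rational point avoiding the zeros of finitely many sections. -/
theorem exists_pt_avoiding (S : Finset D.P0) (hS : ∀ s ∈ S, s ≠ 0) :
    ∃ σ : G.A0 →ₐ[k] k,
      ∀ s ∈ S, s ∉ smulTop (RingHom.ker (G.ev0 ((Algebra.ofId k K).comp σ))) D.P0 := by
  have hfin := (S.finite_toSet.biUnion fun s hs ↦ D.finite_setOf_mem_ker_ev0_smul
    (hS s hs)).preimage
    (CurveCharts.comp_ofId_injective (G := G) (K := K)).injOn
  obtain ⟨σ, hσ⟩ := hfin.exists_notMem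
  exact ⟨σ, fun s hs h ↦ hσ (Set.mem_biUnion (Finset.mem_coe.mpr hs) h)⟩

end Datum

end

end Fermat.PIC
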