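import Fermat.Agent.PIC.Field.Rings

/-!
# Quotients of invertible modules by ideals with finite dimensional quotient

Such a quotient is free of rank one over the quotient ring (`nonempty_quot_smul_top_equiv`).
-/

set_option autoImplicit false

universe u

open scoped TensorProduct

namespace Fermat.PIC

noncomputable section

variable {K : Type u} [Field K] {R : Type u} [CommRing R] [Algebra K R]
  {P : Type u} [AddCommGroup P] [Module R P] [Module.Invertible R P]

/-- Modulo an ideal of finite codimension an invertible module is free of rank one. -/
theorem nonempty_quot_smul_top_equiv (K : Type u) [Field K] [Algebra K R] (I : Ideal R)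
    [Module.Finite K (R ⧸ I)] (P : Type u) [AddCommGroup P] [Module R P] [Module.Invertible R P] :
    Nonempty ((P ⧸ I • (⊤ : Submodule R P)) ≃ₗ[R] R ⧸ I) := by
  have : IsArtinianRing (R ⧸ I) := IsArtinianRing.of_finite K (R ⧸ I)
  obtain ⟨e⟩ := (Module.Invertible.free_iff_linearEquiv (R := R ⧸ I)
    (M := (R ⧸ I) ⊗[R] P)).mp inferInstance
  exact ⟨(TensorProduct.quotTensorEquivQuotSMul P I).symm ≪≫ₗ e.restrictScalars R⟩

variable [Module K P] [IsScalarTower K R P]

/-- The cokernel of a map onto the multiples of an ideal has the codimension of the ideal as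
dimension. -/
theorem finrank_quotient_range {Q : Type u} [AddCommGroup Q] [Module R Q] [Module K Q]
    [IsScalarTower K R Q] (I : Ideal R) [Module.Finite K (R ⧸ I)] {f : Q →ₗ[R] P}
    (h : LinearMap.range f = I • ⊤) :
    Module.finrank K (P ⧸ LinearMap.range (f.restrictScalars K)) = Module.finrank K (R ⧸ I) := by
  obtain ⟨e⟩ := nonempty_quot_smul_top_equiv K I P
  exact LinearEquiv.finrank_eq <|
    (Submodule.quotEquivOfEq _ _ ((LinearMap.range_restrictScalars (R := K) f).trans
      (congrArg (Submodule.restrictScalars K) h))).trans <|
    (Submodule.Quotient.restrictScalarsEquiv K (I • (⊤ : Submodule R P))).trans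
      (e.restrictScalars K)

end

end Fermat.PIC
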