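import Fermat.Agent.PIC.Field.Hereditary
import Fermat.Agent.PIC.Curve.TensorDomain
import Fermat.Agent.PIC.Chart.Cech
import Fermat.Agent.PIC.Chart.Div

/-!
# The chart rings over a field extension are Dedekind domains

Also: restriction to the overlap is a localisation.
-/

set_option autoImplicit false
set_option linter.unusedSectionVars false

universe u

namespace Fermat.PIC

noncomputable section

variable {k : Type u} [Field k] {A : Type u} [CommRing A] [Algebra k A]

/-- A finite algebra over a polynomial ring is of finite type. -/
lemma finiteType_of_aeval_finite {x : A}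
    (h : (Polynomial.aeval x : Polynomial k →ₐ[k] A).toRingHom.Finite) :
      Algebra.FiniteType k A := by
  let := (Polynomial.aeval x : Polynomial k →ₐ[k] A).toRingHom.toAlgebra
  have : IsScalarTower k (Polynomial k) A :=
    IsScalarTower.of_algebraMap_eq fun c ↦ ((Polynomial.aeval x).commutes c).symm
  have : Module.Finite (Polynomial k) A := h
  exact Algebra.FiniteType.trans (S := Polynomial k) inferInstance inferInstance

variable [IsAlgClosed k] (G : CurveCharts k) (K : Type u) [Field K] [Algebra k K]

namespace CurveCharts

/-- The first chart over a field is integral. -/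
instance isDomain_R0 : IsDomain (G.R0 K) := isDomain_tensor (k := k) (A := K) (R := G.A0)
/-- The second chart over a field is integral. -/
instance isDomain_R1 : IsDomain (G.R1 K) := isDomain_tensor (k := k) (A := K) (R := G.A1)
/-- The overlap over a field is integral. -/
instance isDomain_R01 : IsDomain (G.R01 K) := isDomain_tensor (k := k) (A := K) (R := G.A01)

/-- The first chart ring is of finite type. -/
instance finiteType_A0 : Algebra.FiniteType k G.A0 := finiteType_of_aeval_finite G.finite0
/-- The second chart ring is of finite type. -/
instance finiteType_A1 : Algebra.FiniteType k G.A1 := finiteType_of_aeval_finite G.finite1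

/-- The first chart over a field is noetherian. -/
instance isNoetherianRing_R0 : IsNoetherianRing (G.R0 K) :=
  Algebra.FiniteType.isNoetherianRing K _
/-- The second chart over a field is noetherian. -/
instance isNoetherianRing_R1 : IsNoetherianRing (G.R1 K) :=
  Algebra.FiniteType.isNoetherianRing K _

/-- The first chart over a field is a Dedekind domain. -/
instance isDedekindDomain_R0 : IsDedekindDomain (G.R0 K) := by
  have := G.diag0
  obtain ⟨S⟩ := nonempty_diagSplit (k := k) (A := G.A0) K
  exact isDedekindDomain_of_projective (projective_ideal S)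

/-- The second chart over a field is a Dedekind domain. -/
instance isDedekindDomain_R1 : IsDedekindDomain (G.R1 K) := by
  have := G.diag1
  obtain ⟨S⟩ := nonempty_diagSplit (k := k) (A := G.A1) K
  exact isDedekindDomain_of_projective (projective_ideal S)

/-- The coordinate over a field is nonzero. -/
lemma X0_ne_zero : G.X0 K ≠ 0 := fun h ↦ by
  have := G.ρ0_X0_mul_ρ1_Y1 K
  rw [h, map_zero, zero_mul] at this
  exact zero_ne_one this

/-- The inverse coordinate over a field is nonzero. -/
lemma Y1_ne_zero : G.Y1 K ≠ 0 := fun h ↦ by
  have := G.ρ0_X0_mul_ρ1_Y1 K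
  rw [h, map_zero, mul_zero] at this
  exact zero_ne_one this

/-- The overlap is the first chart with the coordinate inverted. -/
lemma isLocalization_ρ0 :
    @IsLocalization _ _ (Submonoid.powers (G.X0 K)) (G.R01 K) _ (G.ρ0 K).toRingHom.toAlgebra := by
  let := (G.ρ0 K).toRingHom.toAlgebra
  refine (isLocalization_iff _ _).mpr ⟨?_, fun z ↦ ?_, fun {a b} h ↦ ?_⟩
  · rintro ⟨_, n, rfl⟩
    change IsUnit (G.ρ0 K (G.X0 K ^ n))
    rw [map_pow]
    exact ((G.xUnit K).isUnit).pow n
  · obtain ⟨n, p, hp⟩ := (Datum.trivial G K).r0_surj z
    refine ⟨(p, ⟨_, n, rfl⟩), ?_⟩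
    change z * G.ρ0 K (G.X0 K ^ n) = G.ρ0 K p
    rw [map_pow, mul_comm]
    exact hp.symm
  · exact ⟨1, by rw [G.ρ0_injective K h]⟩

/-- The overlap over a field is a Dedekind domain. -/
instance isDedekindDomain_R01 : IsDedekindDomain (G.R01 K) := by
  let := (G.ρ0 K).toRingHom.toAlgebra
  have := G.isLocalization_ρ0 K
  exact IsLocalization.isDedekindDomain (G.R0 K)
    (powers_le_nonZeroDivisors_of_noZeroDivisors (G.X0_ne_zero K)) _

end CurveCharts

end

end Fermat.PIC
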