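import Fermat.Agent.PIC.Field.Degree
import Fermat.Agent.PIC.Hilb.RankOne
import Fermat.Agent.PIC.Ops.Point

/-!
# The divisor of a section over a field

The ideals of values of a nonzero section form a divisor of the same degree; sections generating
along the poles of the coordinate.
-/

set_option autoImplicit false

universe u

namespace Fermat.PIC

noncomputable section

/-- Invertible modules over a Dedekind domain cancel. -/
theorem smulTop_injective {R : Type u} [CommRing R] [IsDedekindDomain R] (P : Type u)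
    [AddCommGroup P] [Module R P] [Module.Invertible R P] {I J : Ideal R}
    (h : smulTop I P = smulTop J P) : I = J := by
  obtain ⟨L, ⟨e⟩⟩ := Module.Invertible.exists_linearEquiv_ideal R P
  have hL : L ≠ ⊥ := by
    have := Module.Invertible.congr e
    exact ne_bot_of_invertible L
  have hmap : ∀ A : Ideal R, (smulTop A P).map (L.subtype ∘ₗ e.toLinearMap) = A * L := fun A ↦ by
    rw [Submodule.map_smul'', Submodule.map_top, LinearMap.range_comp, LinearEquiv.range,
      Submodule.map_top, Submodule.range_subtype]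
    rfl
  exact mul_right_cancel₀ hL (by rw [← hmap, ← hmap, h])

variable {k : Type u} [Field k] [IsAlgClosed k] {G : CurveCharts k} {K : Type u} [Field K]
  [Algebra k K]

/-- A pair of nonzero ideals agreeing on the overlap is a divisor. -/
def Div.ofIdeals (I0 : Ideal (G.R0 K)) (I1 : Ideal (G.R1 K)) (h0 : I0 ≠ ⊥) (h1 : I1 ≠ ⊥)
    (h : I0.map (G.ρ0 K) = I1.map (G.ρ1 K)) : Div G K where
  I0 := I0
  I1 := I1
  compat := h
  cofactor0 := by
    have := CurveCharts.finite_quot_R0 h0
    obtain ⟨q, hq, hqI⟩ := exists_monic_aeval_mem (B := K) I0 (G.X0 K)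
    obtain ⟨J, hJ⟩ := Ideal.dvd_iff_le.mpr ((Ideal.span_singleton_le_iff_mem I0).mpr hqI)
    exact ⟨_, J, G.monic_ureg0 hq, hJ.symm⟩
  cofactor1 := by
    have := CurveCharts.finite_quot_R1 h1
    obtain ⟨q, hq, hqI⟩ := exists_monic_aeval_mem (B := K) I1 (G.Y1 K)
    obtain ⟨J, hJ⟩ := Ideal.dvd_iff_le.mpr ((Ideal.span_singleton_le_iff_mem I1).mpr hqI)
    exact ⟨_, J, G.monic_ureg1 hq, hJ.symm⟩

namespace Datum

variable (D : Datum G K)

/-- **The divisor of a nonzero section.** The values of a nonzero section on the two charts are the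
ideals of one divisor, of the degree of the bundle. -/
theorem exists_div_of_section (s : D.H0) (hs : s ≠ 0) :
    ∃ E : Div G K, D.values0 s.1.1 = E.I0 ∧ D.values1 s.1.2 = E.I1 ∧ D.degree = E.deg := by
  have hz : D.r0 s.1.1 = D.r1 s.1.2 := sub_eq_zero.mp ((D.d_apply s.1).symm.trans s.2)
  have hs0 : s.1.1 ≠ 0 := fun h ↦ hs (Subtype.ext (Prod.ext h (D.r1_inj (by
    rw [← hz, h, map_zero]; exact (map_zero _).symm))))
  have hs1 : s.1.2 ≠ 0 := fun h ↦ hs0 (D.r0_inj (by rw [hz, h, map_zero, map_zero]))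
  have e0 : Submodule.span (G.R0 K) {s.1.1} = smulTop (D.values0 s.1.1) D.P0 :=
    (values_smul_top_eq_span _).symm
  have e1 : Submodule.span (G.R1 K) {s.1.2} = smulTop (D.values1 s.1.2) D.P1 :=
    (values_smul_top_eq_span _).symm
  have ne0 : D.values0 s.1.1 ≠ ⊥ := fun h ↦ hs0 (by
    rw [h, smulTop, Submodule.bot_smul, Submodule.span_singleton_eq_bot] at e0; exact e0)
  have ne1 : D.values1 s.1.2 ≠ ⊥ := fun h ↦ hs1 (by
    rw [h, smulTop, Submodule.bot_smul, Submodule.span_singleton_eq_bot] at e1; exact e1)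
  have hc : (D.values0 s.1.1).map (G.ρ0 K) = (D.values1 s.1.2).map (G.ρ1 K) := by
    refine smulTop_injective D.P01 ?_
    exact (span_map_singleton_eq (G.isChartMap0 K) D.r0.toAddMonoidHom D.r0_smul
      D.r0_surj e0).symm.trans
      ((congrArg (fun z ↦ Submodule.span (G.R01 K) {z}) hz).trans
        (span_map_singleton_eq (G.isChartMap1 K) D.r1.toAddMonoidHom D.r1_smul D.r1_surj e1))
  exact ⟨Div.ofIdeals _ _ ne0 ne1 hc, rfl, rfl, D.degree_eq_of_section _ s hs e0 e1⟩

/-- The degree of the line bundle of a divisor is the degree of the divisor. -/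
theorem degree_pos (E : Div G K) : (pos E).degree = E.deg := by
  refine (pos E).degree_eq_of_section E (posSection E) (fun h ↦ ?_) ?_ ?_
  · have h1 := values0_posSection E
    rw [h, Submodule.coe_zero, Prod.fst_zero, values0, map_zero, LinearMap.range_zero] at h1
    exact ne_bot_of_invertible E.I0 h1.symm
  · rw [← values0_posSection E]; exact (values_smul_top_eq_span _).symm
  · rw [← values1_posSection E]; exact (values_smul_top_eq_span _).symm

/-- A section generating along the poles of the coordinate. -/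
theorem exists_section_coprime (h : (D.twist (-1)).h1 = 0) :
    ∃ s : D.H0, D.values1 s.1.2 ⊔ Ideal.span {G.Y1 K} = ⊤ := by
  obtain ⟨e⟩ := nonempty_quot_smul_top_equiv K (Ideal.span {G.Y1 K}) D.P1
  obtain ⟨p, hp⟩ := Submodule.mkQ_surjective _ (e.symm 1)
  obtain ⟨⟨a, b⟩, hab⟩ := (h1_eq_zero_iff _).mp h (D.r1 p)
  let b' : D.P1 := b
  have hs : D.r0 a = D.r1 (p + G.Y1 K • b') := by
    have h2 : D.r0 a - (↑(G.xUnit K ^ (-1 : ℤ)) : G.R01 K) • D.r1 b' = D.r1 p := hab
    rw [sub_eq_iff_eq_add] at h2
    rw [h2, map_add, D.r1_smul, zpow_neg_one]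
    rfl
  let s : D.H0 := ⟨(a, p + G.Y1 K • b'), by rw [LinearMap.mem_ker, d_apply, sub_eq_zero]; exact hs⟩
  refine ⟨s, smulTop_injective D.P1 ?_⟩
  rw [smulTop, smulTop, Submodule.top_smul, Submodule.sup_smul,
    ← show Submodule.span (G.R1 K) {s.1.2} = D.values1 s.1.2 • ⊤ from
      (values_smul_top_eq_span _).symm,
    eq_top_iff]
  intro v _
  obtain ⟨r, hr⟩ := Ideal.Quotient.mk_surjective (e (Submodule.Quotient.mk v))
  have hv : v - r • s.1.2 ∈ Ideal.span {G.Y1 K} • (⊤ : Submodule (G.R1 K) D.P1) := by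
    rw [← Submodule.Quotient.mk_eq_zero, Submodule.Quotient.mk_sub, Submodule.Quotient.mk_smul,
      sub_eq_zero, ← e.injective.eq_iff, map_smul]
    have hsp : e (Submodule.Quotient.mk s.1.2) = 1 := by
      rw [← e.apply_symm_apply 1, ← hp]
      congr 1
      rw [Submodule.mkQ_apply, Submodule.Quotient.eq]
      change p + G.Y1 K • b' - p ∈ _
      rw [add_sub_cancel_left]
      exact Submodule.smul_mem_smul (Ideal.mem_span_singleton_self _) Submodule.mem_top
    rw [hsp, ← hr, Algebra.smul_def, mul_one]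
    rfl
  rw [show v = r • s.1.2 + (v - r • s.1.2) by abel]
  exact Submodule.add_mem_sup (Submodule.smul_mem _ _ (Submodule.mem_span_singleton_self _)) hv

end Datum

end

end Fermat.PIC
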